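import Fermat.Agent.AbScheme.Bridge.Charts
import Fermat.Agent.AbScheme.Cube.Defs

/-!
Boxes of a product of two varieties over a parameter ring, read in the tensor product of the function
fields.
-/

set_option autoImplicit false
set_option linter.unusedSectionVars false
set_option linter.style.haveILetI false

noncomputable section

universe u

namespace FLTAgent.AbScheme

open CategoryTheory CategoryTheory.Limits AlgebraicGeometry TopologicalSpace Opposite
open scoped TensorProduct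

variable {K : Type u} [Field K]

/-- A chart of `X` on `U` with its coordinate ring inside `F`. -/
structure Ch {X : Scheme.{u}} (a : X ⟶ Spec (CommRingCat.of K)) {F : Type u} [CommRing F]
    [Algebra K F] (gn : Spec (CommRingCat.of F) ⟶ X) {B : Type u} [CommRing B] [Algebra K B]
    (ι : B →ₐ[K] F) (U : X.Opens) : Type u where
  /-- The chart. -/
  g : Spec (CommRingCat.of B) ⟶ X
  [imm : IsOpenImmersion g]
  hover : g ≫ a = spStr K B
  range_eq : Set.range g = (U : Set X)
  gen : spMap ι ≫ g = gn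
  inj : Function.Injective ι

attribute [instance] Ch.imm

namespace Ch

variable {X Y : Scheme.{u}} {a : X ⟶ Spec (CommRingCat.of K)} {b : Y ⟶ Spec (CommRingCat.of K)}
  {F G B C : Type u} [CommRing F] [Algebra K F] [CommRing G] [Algebra K G] [CommRing B]
  [Algebra K B] [CommRing C] [Algebra K C] {gn : Spec (CommRingCat.of F) ⟶ X}
  {gn' : Spec (CommRingCat.of G) ⟶ Y} {ι : B →ₐ[K] F} {κ : C →ₐ[K] G} {U : X.Opens} {W : Y.Opens}

theorem top_le (c : Ch a gn ι U) {O : X.Opens} (h : U ≤ O) : ⊤ ≤ gn ⁻¹ᵁ O := fun x _ => by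
  show gn x ∈ O
  rw [← c.gen, Scheme.Hom.comp_apply]
  exact h (c.range_eq.le (Set.mem_range_self _))

theorem top_le_g (c : Ch a gn ι U) {O : X.Opens} (h : U ≤ O) : ⊤ ≤ c.g ⁻¹ᵁ O := fun x _ =>
  h (c.range_eq.le (Set.mem_range_self x))

theorem isAffineOpen (c : Ch a gn ι U) : IsAffineOpen U := by
  have e : U = c.g.opensRange := Opens.ext c.range_eq.symm
  rw [e]
  exact isAffineOpen_opensRange c.g

theorem rd_gn (c : Ch a gn ι U) {O : X.Opens} (hO : U ≤ O) (h : ⊤ ≤ gn ⁻¹ᵁ O) (s : Γ(X, O)) :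
    rd gn h s = ι (rd c.g (c.top_le_g hO) s) := by
  obtain ⟨g, hg, hr, hgen, hi⟩ := c
  subst hgen
  exact rd_specMap g ι.toRingHom _ h s

theorem rd_injective (c : Ch a gn ι U) : Function.Injective (rd gn (c.top_le le_rfl)) := fun s t e =>
  (rd_bijective c.g c.range_eq (c.top_le_g le_rfl)).1
    (c.inj ((c.rd_gn le_rfl _ s).symm.trans (e.trans (c.rd_gn le_rfl _ t))))

theorem rd_mem (c : Ch a gn ι U) {O : X.Opens} (hO : U ≤ O) (h : ⊤ ≤ gn ⁻¹ᵁ O) (s : Γ(X, O)) :
    rd gn h s ∈ ι.range := ⟨_, (c.rd_gn hO h s).symm⟩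

theorem exists_rd_eq (c : Ch a gn ι U) {x : F} (hx : x ∈ ι.range) :
    ∃ s : Γ(X, U), rd gn (c.top_le le_rfl) s = x := by
  obtain ⟨y, rfl⟩ := hx
  obtain ⟨s, rfl⟩ := (rd_bijective c.g c.range_eq (c.top_le_g le_rfl)).2 y
  exact ⟨s, c.rd_gn le_rfl _ s⟩

/-- A product of charts. -/
def prod (c : Ch a gn ι U) (hgn : gn ≫ a = spStr K F) (d : Ch b gn' κ W)
    (hgn' : gn' ≫ b = spStr K G) :
    Ch (pullback.fst a b ≫ a) (pchart a b gn hgn gn' hgn') (Algebra.TensorProduct.map ι κ)
      (pullback.fst a b ⁻¹ᵁ U ⊓ pullback.snd a b ⁻¹ᵁ W) where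
  g := pchart a b c.g c.hover d.g d.hover
  hover := pchart_over
  range_eq := by
    rw [range_pchart, c.range_eq, d.range_eq]
    rfl
  gen := spMap_map_pchart ι κ hgn hgn' c.gen d.gen
  inj := TensorProduct.map_injective_of_flat_flat ι.toLinearMap κ.toLinearMap c.inj d.inj

/-- The chart of the whole spectrum. -/
def self (S : Type u) [CommRing S] [Algebra K S] :
    Ch (spStr K S) (𝟙 (Spec (CommRingCat.of S))) (AlgHom.id K S) ⊤ where
  g := 𝟙 _
  hover := Category.id_comp _
  range_eq := Set.eq_univ_of_forall fun x => ⟨x, rfl⟩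
  gen := by
    rw [Category.comp_id]
    exact Spec.map_id _
  inj := Function.injective_id

/-- A chart over a parameter algebra. -/
def baseChange (c : Ch a gn ι U) (hgn : gn ≫ a = spStr K F) (S : Type u) [CommRing S]
    [Algebra K S] :
    Ch (pullback.fst a (spStr K S) ≫ a)
      (pchart a (spStr K S) gn hgn (𝟙 _) (Category.id_comp _))
      (Algebra.TensorProduct.map ι (AlgHom.id K S)) (pullback.fst a (spStr K S) ⁻¹ᵁ U) :=
  let e := c.prod hgn (Ch.self S) (Category.id_comp _)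
  { g := e.g
    hover := e.hover
    range_eq := e.range_eq.trans (by simp)
    gen := e.gen
    inj := e.inj }

end Ch

/-- A chart of a variety from its ring of functions. -/
def Var.ch (V : Var K) {U : V.X.Opens} (hU : IsAffineOpen U) (hne : (U : Set V.X).Nonempty)
    {A : Subalgebra K V.fn} (hA : A = V.ringOf U) : Ch V.str V.gen A.val U where
  g := spMap (Subalgebra.inclusion hA.ge) ≫ V.chart hU hne
  imm := by subst hA; rw [show spMap (Subalgebra.inclusion (le_refl (V.ringOf U))) = 𝟙 _ from Spec.map_id _]; infer_instance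
  hover := by rw [Category.assoc, V.chart_over, spMap_comp_spStr]
  range_eq := by
    subst hA
    rw [show spMap (Subalgebra.inclusion (le_refl (V.ringOf U))) = 𝟙 _ from Spec.map_id _,
      Category.id_comp, V.range_chart]
  gen := by
    subst hA
    rw [show spMap (Subalgebra.inclusion (le_refl (V.ringOf U))) = 𝟙 _ from Spec.map_id _,
      Category.id_comp, V.spMap_val_chart]
  inj := Subtype.val_injective

variable (V W : Var K)

/-- The product of the two varieties. -/
abbrev xy : Scheme.{u} := pullback V.str W.str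

/-- The structure map of the product. -/
abbrev xyStr : xy V W ⟶ Spec (CommRingCat.of K) := pullback.fst V.str W.str ≫ V.str

/-- The product over a parameter ring. -/
abbrev MM (S : Type u) [CommRing S] [Algebra K S] : Scheme.{u} := pullback (xyStr V W) (spStr K S)

/-- The generic point of the product. -/
abbrev genXY : Spec (CommRingCat.of (V.fn ⊗[K] W.fn)) ⟶ xy V W :=
  pchart V.str W.str V.gen V.gen_over W.gen W.gen_over

/-- The generic fibre over the parameters. -/
abbrev eta (S : Type u) [CommRing S] [Algebra K S] :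
    Spec (CommRingCat.of (Cube.Amb K V.fn W.fn S)) ⟶ MM V W S :=
  pchart (xyStr V W) (spStr K S) (genXY V W) pchart_over (𝟙 _) (Category.id_comp _)

/-- The base change of the parameters. -/
def bcTo {T : Scheme.{u}} (t : T ⟶ Spec (CommRingCat.of K)) {S : Type u} [CommRing S] [Algebra K S]
    (h : Spec (CommRingCat.of S) ⟶ T) (hh : h ≫ t = spStr K S) :
    MM V W S ⟶ pullback (xyStr V W) t :=
  pullback.map _ _ _ _ (𝟙 _) h (𝟙 _) (by simp) (by simp [hh])

theorem bcTo_fst {T : Scheme.{u}} (t : T ⟶ Spec (CommRingCat.of K)) {S : Type u} [CommRing S]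
    [Algebra K S] (h : Spec (CommRingCat.of S) ⟶ T) (hh : h ≫ t = spStr K S) :
    bcTo V W t h hh ≫ pullback.fst _ _ = pullback.fst _ _ := by
  simp only [bcTo, pullback.map, pullback.lift_fst, pullback.lift_snd, Category.comp_id]

theorem bcTo_snd {T : Scheme.{u}} (t : T ⟶ Spec (CommRingCat.of K)) {S : Type u} [CommRing S]
    [Algebra K S] (h : Spec (CommRingCat.of S) ⟶ T) (hh : h ≫ t = spStr K S) :
    bcTo V W t h hh ≫ pullback.snd _ _ = pullback.snd _ _ ≫ h := by
  simp only [bcTo, pullback.map, pullback.lift_fst, pullback.lift_snd, Category.comp_id]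

/-- The change of parameters. -/
abbrev bc {R S : Type u} [CommRing R] [Algebra K R] [CommRing S] [Algebra K S] (φ : R →ₐ[K] S) :
    MM V W S ⟶ MM V W R :=
  bcTo V W (spStr K R) (spMap φ) (spMap_comp_spStr φ)

theorem eta_bc {R S : Type u} [CommRing R] [Algebra K R] [CommRing S] [Algebra K S]
    (φ : R →ₐ[K] S) :
    eta V W S ≫ bc V W φ = spMap (Cube.ambMap (F := V.fn) (G := W.fn) φ) ≫ eta V W R := by
  rw [show spMap (Cube.ambMap (F := V.fn) (G := W.fn) φ) ≫ eta V W R =
      pchart (xyStr V W) (spStr K R) (genXY V W) pchart_over (spMap φ) (spMap_comp_spStr φ) from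
    spMap_map_pchart _ _ _ _ (by rw [show spMap (AlgHom.id K (V.fn ⊗[K] W.fn)) = 𝟙 _ from
      Spec.map_id _, Category.id_comp]) (Category.comp_id _)]
  refine pullback.hom_ext ?_ ?_
  · rw [Category.assoc, bcTo_fst, pchart_fst, pchart_fst]
  · rw [Category.assoc, bcTo_snd, ← Category.assoc, pchart_snd, pchart_snd, Category.comp_id]

/-- The open box. -/
abbrev boxO (S : Type u) [CommRing S] [Algebra K S] (U : V.X.Opens) (U' : W.X.Opens) :
    (MM V W S).Opens :=
  pullback.fst (xyStr V W) (spStr K S) ⁻¹ᵁ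
    (pullback.fst V.str W.str ⁻¹ᵁ U ⊓ pullback.snd V.str W.str ⁻¹ᵁ U')

theorem bc_preimage_boxO {R S : Type u} [CommRing R] [Algebra K R] [CommRing S] [Algebra K S]
    (φ : R →ₐ[K] S) (U : V.X.Opens) (U' : W.X.Opens) :
    bc V W φ ⁻¹ᵁ boxO V W R U U' = boxO V W S U U' := by
  rw [← Scheme.Hom.comp_preimage, bcTo_fst]

theorem boxO_inf (S : Type u) [CommRing S] [Algebra K S] (U T : V.X.Opens) (U' T' : W.X.Opens) :
    boxO V W S U U' ⊓ boxO V W S T T' = boxO V W S (U ⊓ T) (U' ⊓ T') := by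
  ext x
  simp only [boxO, Opens.coe_inf, Set.mem_inter_iff]
  exact ⟨fun ⟨⟨a, b⟩, c, d⟩ => ⟨⟨a, c⟩, b, d⟩, fun ⟨⟨a, c⟩, b, d⟩ => ⟨⟨a, b⟩, c, d⟩⟩

variable {V W}

/-- The inclusion of the ring of a box. -/
abbrev boxIncl (A : Subalgebra K V.fn) (B : Subalgebra K W.fn) (S : Type u) [CommRing S]
    [Algebra K S] : (A ⊗[K] B) ⊗[K] S →ₐ[K] Cube.Amb K V.fn W.fn S :=
  Algebra.TensorProduct.map (Algebra.TensorProduct.map A.val B.val) (AlgHom.id K S)

/-- The chart of a box. -/
def boxCh (S : Type u) [CommRing S] [Algebra K S] {U : V.X.Opens} {U' : W.X.Opens}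
    {A : Subalgebra K V.fn} {B : Subalgebra K W.fn} (c : Ch V.str V.gen A.val U)
    (d : Ch W.str W.gen B.val U') :
    Ch (B := (A ⊗[K] B) ⊗[K] S) (pullback.fst (xyStr V W) (spStr K S) ≫ xyStr V W) (eta V W S)
      (boxIncl A B S)
      (boxO V W S U U') :=
  (c.prod V.gen_over d W.gen_over).baseChange pchart_over S

/-- Functions on an open set read in the ambient ring. -/
def theta (S : Type u) [CommRing S] [Algebra K S] {O : (MM V W S).Opens}
    (h : ⊤ ≤ eta V W S ⁻¹ᵁ O) : Γ(MM V W S, O) →+* Cube.Amb K V.fn W.fn S :=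
  rd (eta V W S) h

theorem theta_res (S : Type u) [CommRing S] [Algebra K S] {O O' : (MM V W S).Opens} (hle : O' ≤ O)
    (h : ⊤ ≤ eta V W S ⁻¹ᵁ O') (h₀ : ⊤ ≤ eta V W S ⁻¹ᵁ O) (c : Γ(MM V W S, O)) :
    theta S h (((MM V W S).presheaf.map (homOfLE hle).op).hom c) = theta S h₀ c :=
  rd_res _ hle h h₀ c

theorem theta_bc {R S : Type u} [CommRing R] [Algebra K R] [CommRing S] [Algebra K S]
    (φ : R →ₐ[K] S) {O : (MM V W R).Opens} (h : ⊤ ≤ eta V W S ⁻¹ᵁ (bc V W φ ⁻¹ᵁ O))
    (h₀ : ⊤ ≤ eta V W R ⁻¹ᵁ O) (c : Γ(MM V W R, O)) :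
    theta S h (((bc V W φ).app O).hom c) = Cube.ambMap φ (theta R h₀ c) := by
  have h' : ⊤ ≤ (eta V W S ≫ bc V W φ) ⁻¹ᵁ O := h
  refine (rd_app _ _ h h' c).trans ?_
  revert h'
  rw [eta_bc]
  intro h'
  exact rd_specMap _ _ h₀ h' c

end FLTAgent.AbScheme
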