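import Fermat.Agent.AbScheme.Bridge.SecOn

/-!
Rank one transition matrices of a line bundle on a family of affine opens, and the gluing of
trivialisations given locally over a base.
-/

set_option autoImplicit false
set_option linter.unusedSectionVars false
set_option linter.style.haveILetI false

noncomputable section

universe u

namespace FLTAgent.AbScheme

open CategoryTheory AlgebraicGeometry TopologicalSpace Opposite
open scoped Matrix

variable {X Y Z : Scheme.{u}}

namespace LB

/-- Frames on a family of opens with their transition matrices. -/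
structure Framing (L : LB X) {α : Type u} (O : α → X.Opens) : Type u where
  /-- The number of generators. -/
  n : α → ℕ
  /-- The generators. -/
  σ : ∀ a, Fin (n a) → L.SecOn (O a)
  /-- The coordinates. -/
  τ : ∀ a, Fin (n a) → L.inv.SecOn (O a)
  /-- The transition matrices. -/
  T : ∀ a b, Matrix (Fin (n b)) (Fin (n a)) Γ(X, O a ⊓ O b)
  pairs : ∀ a b k l x (W : X.Opens) (h : W ≤ O a ⊓ O b) (hx : W ≤ L.U x),
    res h (T a b k l) =
      res (le_inf (h.trans inf_le_left) hx) ((σ a l).s x) *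
        res (show W ≤ O b ⊓ L.inv.U x from le_inf (h.trans inf_le_right) hx) ((τ b k).s x)
  one : ∀ a, ∑ k, T a a k k = 1

theorem exists_framing (L : LB X) {α : Type u} (O : α → X.Opens) (hO : ∀ a, IsAffineOpen (O a)) :
    Nonempty (L.Framing O) := by
  choose n σ τ h1 using fun a => exists_frameOn L (hO a)
  choose T hT using fun a b k l => exists_pairing (σ a l) (τ b k)
  refine ⟨⟨n, σ, τ, fun a b => Matrix.of fun k l => T a b k l,
    fun a b k l x W h hx => hT a b k l x W h hx, fun a => ?_⟩⟩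
  refine eq_of_res_eq (fun x => O a ⊓ O a ⊓ L.U x) (fun x => inf_le_left)
    (fun z hz => ⟨z, hz, L.mem z⟩) fun x => ?_
  rw [map_sum, map_one]
  exact (Finset.sum_congr rfl fun k _ => hT a a k k x _ inf_le_left inf_le_right).trans
    (h1 a x _ _ _)

variable {L : LB X} {α : Type u} {O : α → X.Opens} (F : L.Framing O)

/-- The coordinate functions in a chart. -/
def Framing.tv (a : α) (k : Fin (F.n a)) {W : X.Opens} (x : X) (ha : W ≤ O a) (hx : W ≤ L.U x) :
    Γ(X, W) := (F.τ a k).val x ha hx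

theorem Framing.res_T (a b : α) (k : Fin (F.n b)) (l : Fin (F.n a)) {W : X.Opens} (x : X)
    (h : W ≤ O a ⊓ O b) (ha : W ≤ O a) (hb : W ≤ O b) (hx : W ≤ L.U x) :
    res h (F.T a b k l) = (F.σ a l).val x ha hx * F.tv b k x hb hx :=
  F.pairs a b k l x W h hx

theorem Framing.sum_val (a : α) {W : X.Opens} (x : X) (ha : W ≤ O a) (hx : W ≤ L.U x) :
    ∑ k, (F.σ a k).val x ha hx * F.tv a k x ha hx = 1 := by
  have e := congrArg (res (le_inf ha ha)) (F.one a)
  rw [map_sum, map_one] at e
  exact (Finset.sum_congr rfl fun k _ => (F.res_T a a k k x (le_inf ha ha) ha ha hx).symm).trans e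

theorem Framing.trans (a b c : α) (W : X.Opens) (hab : W ≤ O a ⊓ O b) (hbc : W ≤ O b ⊓ O c)
    (hac : W ≤ O a ⊓ O c) :
    (F.T b c).map (res hbc) * (F.T a b).map (res hab) = (F.T a c).map (res hac) := by
  ext k m
  simp only [Matrix.mul_apply, Matrix.map_apply]
  refine eq_of_res_eq (fun x => W ⊓ L.U x) (fun x => inf_le_left)
    (fun z hz => ⟨z, hz, L.mem z⟩) fun x => ?_
  have ha : W ⊓ L.U x ≤ O a := inf_le_left.trans (hab.trans inf_le_left)
  have hb : W ⊓ L.U x ≤ O b := inf_le_left.trans (hab.trans inf_le_right)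
  have hc : W ⊓ L.U x ≤ O c := inf_le_left.trans (hbc.trans inf_le_right)
  simp only [map_sum, map_mul, res_res]
  rw [F.res_T a c k m x _ ha hc inf_le_right]
  calc _ = ∑ j, (F.σ a m).val x ha inf_le_right * F.tv c k x hc inf_le_right *
        ((F.σ b j).val x hb inf_le_right * F.tv b j x hb inf_le_right) :=
      Finset.sum_congr rfl fun j _ => by
        rw [F.res_T b c k j x _ hb hc inf_le_right, F.res_T a b j m x _ ha hb inf_le_right]
        ring
    _ = _ := by rw [← Finset.mul_sum, F.sum_val b x hb inf_le_right, mul_one]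

theorem Framing.rankOne (a b : α) (k k' : Fin (F.n b)) (l l' : Fin (F.n a)) :
    F.T a b k l * F.T a b k' l' = F.T a b k l' * F.T a b k' l := by
  refine eq_of_res_eq (fun x => O a ⊓ O b ⊓ L.U x) (fun x => inf_le_left)
    (fun z hz => ⟨z, hz, L.mem z⟩) fun x => ?_
  simp only [map_mul, F.res_T a b _ _ x inf_le_left (inf_le_left.trans inf_le_left)
    (inf_le_left.trans inf_le_right) inf_le_right]
  ring

/-- The pullback of a framing. -/
def Framing.pull (φ : Y ⟶ X) : (L.pull φ).Framing fun a => φ ⁻¹ᵁ O a where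
  n := F.n
  σ a l := (F.σ a l).pull φ
  τ a k := ((F.τ a k).pull φ).ofInvPull φ
  T a b := Matrix.of fun k l => (φ.app (O a ⊓ O b)).hom (F.T a b k l)
  pairs a b k l y W h hy := by
    have hB : W ≤ φ ⁻¹ᵁ (O a ⊓ O b ⊓ L.U (φ y)) := fun z hz => ⟨h hz, hy hz⟩
    refine (res_app φ (inf_le_left : O a ⊓ O b ⊓ L.U (φ y) ≤ _) h hB _).trans ?_
    rw [F.res_T a b k l (φ y) _ (inf_le_left.trans inf_le_left) (inf_le_left.trans inf_le_right)
      inf_le_right, map_mul, map_mul]
    exact congrArg₂ (· * ·)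
      (SecOn.pull_val φ (F.σ a l) y hB _ _ (h.trans inf_le_left) hy).symm
      (SecOn.pull_val φ (F.τ b k) y hB _ _ (h.trans inf_le_right) hy).symm
  one a := by
    show ∑ k, (φ.app (O a ⊓ O a)).hom (F.T a a k k) = 1
    rw [← map_sum, F.one, map_one]

/-- The coordinates of a trivialisation in a framing. -/
structure Framing.Vec : Type u where
  /-- The section. -/
  v : ∀ a, Fin (F.n a) → Γ(X, O a)
  /-- The inverse section. -/
  w : ∀ a, Fin (F.n a) → Γ(X, O a)
  v_rel : ∀ a b, F.T a b *ᵥ (fun l => res inf_le_left (v a l)) = fun k => res inf_le_right (v b k)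
  w_rel : ∀ a b, (fun k => res inf_le_right (w b k)) ᵥ* F.T a b = fun l => res inf_le_left (w a l)
  one : ∀ a, w a ⬝ᵥ v a = 1

theorem Framing.nonempty_vec (h : L.IsTrivial) : Nonempty F.Vec := by
  obtain ⟨s, hs⟩ := h
  have hu : ∀ x, IsUnit ((s.toSecOn ⊤).s x) := fun x => (hs x).map _
  obtain ⟨t, ht⟩ := exists_secOn_inv (s.toSecOn ⊤) hu
  choose v' hv' using fun a k => exists_pairing (s.toSecOn ⊤) (F.τ a k)
  choose w' hw' using fun a k => exists_pairing (F.σ a k) t
  let v : ∀ a, Fin (F.n a) → Γ(X, O a) := fun a k => res (le_inf le_top le_rfl) (v' a k)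
  let w : ∀ a, Fin (F.n a) → Γ(X, O a) := fun a k => res (le_inf le_rfl le_top) (w' a k)
  let sv : ∀ {W : X.Opens} (x : X), W ≤ L.U x → Γ(X, W) := fun x hx =>
    (s.toSecOn ⊤).val x le_top hx
  let ti : ∀ {W : X.Opens} (x : X), W ≤ L.U x → Γ(X, W) := fun x hx => t.val x le_top hx
  have hv : ∀ a k (W : X.Opens) (x : X) (ha : W ≤ O a) (hx : W ≤ L.U x),
      res ha (v a k) = sv x hx * F.tv a k x ha hx :=
    fun a k W x ha hx => (res_res _ _ _).trans (hv' a k x W _ hx)
  have hw : ∀ a k (W : X.Opens) (x : X) (ha : W ≤ O a) (hx : W ≤ L.U x),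
      res ha (w a k) = (F.σ a k).val x ha hx * ti x hx :=
    fun a k W x ha hx => (res_res _ _ _).trans (hw' a k x W _ hx)
  refine ⟨⟨v, w, fun a b => ?_, fun a b => ?_, fun a => ?_⟩⟩
  · funext k
    refine eq_of_res_eq (fun x => O a ⊓ O b ⊓ L.U x) (fun x => inf_le_left)
      (fun z hz => ⟨z, hz, L.mem z⟩) fun x => ?_
    have ha : O a ⊓ O b ⊓ L.U x ≤ O a := inf_le_left.trans inf_le_left
    have hb : O a ⊓ O b ⊓ L.U x ≤ O b := inf_le_left.trans inf_le_right
    simp only [Matrix.mulVec, dotProduct, map_sum, map_mul, res_res]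
    rw [hv b k _ x hb inf_le_right]
    calc _ = ∑ l, sv x inf_le_right * F.tv b k x hb inf_le_right *
          ((F.σ a l).val x ha inf_le_right * F.tv a l x ha inf_le_right) :=
        Finset.sum_congr rfl fun l _ => by
          rw [F.res_T a b k l x inf_le_left ha hb inf_le_right, hv a l _ x ha inf_le_right]
          ring
      _ = _ := by rw [← Finset.mul_sum, F.sum_val a x ha inf_le_right, mul_one]
  · funext l
    refine eq_of_res_eq (fun x => O a ⊓ O b ⊓ L.U x) (fun x => inf_le_left)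
      (fun z hz => ⟨z, hz, L.mem z⟩) fun x => ?_
    have ha : O a ⊓ O b ⊓ L.U x ≤ O a := inf_le_left.trans inf_le_left
    have hb : O a ⊓ O b ⊓ L.U x ≤ O b := inf_le_left.trans inf_le_right
    simp only [Matrix.vecMul, dotProduct, map_sum, map_mul, res_res]
    rw [hw a l _ x ha inf_le_right]
    calc _ = ∑ k, (F.σ a l).val x ha inf_le_right * ti x inf_le_right *
          ((F.σ b k).val x hb inf_le_right * F.tv b k x hb inf_le_right) :=
        Finset.sum_congr rfl fun k _ => by
          rw [F.res_T a b k l x inf_le_left ha hb inf_le_right, hw b k _ x hb inf_le_right]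
          ring
      _ = _ := by rw [← Finset.mul_sum, F.sum_val b x hb inf_le_right, mul_one]
  · refine eq_of_res_eq (fun x => O a ⊓ L.U x) (fun x => inf_le_left)
      (fun z hz => ⟨z, hz, L.mem z⟩) fun x => ?_
    have h1 : sv (W := O a ⊓ L.U x) x inf_le_right * ti x inf_le_right = 1 :=
      ht x _ le_top inf_le_right
    simp only [dotProduct, map_sum, map_mul, map_one]
    calc _ = ∑ k, sv x inf_le_right * ti x inf_le_right *
          ((F.σ a k).val x inf_le_left inf_le_right * F.tv a k x inf_le_left inf_le_right) :=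
        Finset.sum_congr rfl fun k _ => by
          rw [hw a k _ x inf_le_left inf_le_right, hv a k _ x inf_le_left inf_le_right]
          ring
      _ = _ := by rw [← Finset.mul_sum, h1, one_mul, F.sum_val a x inf_le_left inf_le_right]

theorem Framing.isTrivial_of_vec (hcov : ⨆ a, O a = ⊤) (h : Nonempty F.Vec) : L.IsTrivial := by
  obtain ⟨V⟩ := h
  let e : ∀ a (W : X.Opens) (x : X), W ≤ O a → W ≤ L.U x → Γ(X, W) := fun a W x ha hx =>
    ∑ l, res ha (V.v a l) * (F.σ a l).val x ha hx
  have he : ∀ a (W W' : X.Opens) (x : X) (ha : W ≤ O a) (hx : W ≤ L.U x) (h : W' ≤ W),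
      res h (e a W x ha hx) = e a W' x (h.trans ha) (h.trans hx) := by
    intro a W W' x ha hx h
    simp only [e, map_sum, map_mul, res_res, SecOn.res_val]
  refine isTrivial_of_cover O hcov (fun a x => e a _ x inf_le_left inf_le_right) (fun a x => ?_)
    (fun a x y A h₁ h₂ h₃ => ?_) fun a b x A h₁ h₂ => ?_
  · have hvv : ∀ m, res (inf_le_left : O a ⊓ L.U x ≤ O a) (V.v a m) =
        ∑ l, (F.σ a l).val x inf_le_left inf_le_right * F.tv a m x inf_le_left inf_le_right *
          res inf_le_left (V.v a l) := fun m => by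
      have e' := congrArg (res (le_inf inf_le_left inf_le_left : O a ⊓ L.U x ≤ O a ⊓ O a))
        (congrFun (V.v_rel a a) m)
      simp only [Matrix.mulVec, dotProduct, map_sum, map_mul, res_res] at e'
      rw [← e']
      exact Finset.sum_congr rfl fun l _ => by
        rw [F.res_T a a m l x _ inf_le_left inf_le_left inf_le_right]
    refine IsUnit.of_mul_eq_one
      (∑ m, res inf_le_left (V.w a m) * F.tv a m x inf_le_left inf_le_right) ?_
    have h1 := congrArg (res (inf_le_left : O a ⊓ L.U x ≤ O a)) (V.one a)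
    simp only [dotProduct, map_sum, map_mul, map_one] at h1
    rw [← h1, Finset.sum_mul]
    simp only [e, Finset.mul_sum]
    rw [Finset.sum_comm]
    refine Finset.sum_congr rfl fun m _ => ?_
    rw [hvv m, Finset.mul_sum]
    exact Finset.sum_congr rfl fun l _ => by ring
  · rw [he, he]
    simp only [e, Finset.mul_sum]
    refine Finset.sum_congr rfl fun l _ => ?_
    rw [(F.σ a l).val_rel x y _ (h₁.trans inf_le_right) (h₂.trans inf_le_right)]
    ring
  · have ha : A ≤ O a := h₁.trans inf_le_left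
    have hb : A ≤ O b := h₂.trans inf_le_left
    have hx : A ≤ L.U x := h₁.trans inf_le_right
    rw [he, he]
    show ∑ l, res ha (V.v a l) * (F.σ a l).val x ha hx =
      ∑ k, res hb (V.v b k) * (F.σ b k).val x hb hx
    symm
    calc ∑ k, res hb (V.v b k) * (F.σ b k).val x hb hx
        = ∑ k, ∑ l, res ha (V.v a l) * (F.σ a l).val x ha hx *
            ((F.σ b k).val x hb hx * F.tv b k x hb hx) := by
          refine Finset.sum_congr rfl fun k _ => ?_
          have e' := congrArg (res (le_inf ha hb)) (congrFun (V.v_rel a b) k)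
          simp only [Matrix.mulVec, dotProduct, map_sum, map_mul, res_res] at e'
          rw [← e', Finset.sum_mul]
          refine Finset.sum_congr rfl fun l _ => ?_
          rw [F.res_T a b k l x (le_inf ha hb) ha hb hx]
          ring
      _ = _ := by
          rw [Finset.sum_comm]
          refine Finset.sum_congr rfl fun l _ => ?_
          rw [← Finset.mul_sum, F.sum_val b x hb hx, mul_one]

end LB

theorem res_app_of_eq_id {q : Z ⟶ Z} (hq : q = 𝟙 Z) {W : Z.Opens} (h : W ≤ q ⁻¹ᵁ W)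
    (a : Γ(Z, W)) : res h ((q.app W).hom a) = a := by
  subst hq
  exact res_self a

/-- A bundle trivial along a section and locally over the base is trivial, when functions on the
preimages of opens of the base are determined along the section. -/
theorem LB.isTrivial_of_local_base {M : Scheme.{u}} (p : M ⟶ Z) (s : Z ⟶ M) (hs : s ≫ p = 𝟙 Z)
    (L : LB M) {ι : Type u} (W : ι → Z.Opens) (hW : ⨆ i, W i = ⊤)
    (hloc : ∀ i, (L.pull (p ⁻¹ᵁ W i).ι).IsTrivial) (hsec : (L.pull s).IsTrivial)
    (hrig : ∀ i j (c : Γ(M, p ⁻¹ᵁ (W i ⊓ W j))),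
      ((s.app (p ⁻¹ᵁ (W i ⊓ W j))).hom c) = 1 → c = 1) :
    L.IsTrivial := by
  have hWs : ∀ B : Z.Opens, B ≤ s ⁻¹ᵁ (p ⁻¹ᵁ B) := fun B => by
    rw [← Scheme.Hom.comp_preimage, hs]
    rfl
  have hsW : ∀ B : Z.Opens, s ⁻¹ᵁ (p ⁻¹ᵁ B) ≤ B := fun B => by
    rw [← Scheme.Hom.comp_preimage, hs]
    rfl
  obtain ⟨σ₀, hσ₀⟩ := hsec
  have hσu : ∀ y, IsUnit ((σ₀.toSecOn ⊤).s y) := fun y => (hσ₀ y).map _
  obtain ⟨σi, hσi⟩ := exists_secOn_inv (σ₀.toSecOn ⊤) hσu
  choose e₀ he₀ using fun i => exists_unitSecOn (hloc i)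
  choose e₀' he₀' using fun i => exists_secOn_inv (e₀ i) (he₀ i)
  choose b hb using fun i => exists_pairing (σ₀.toSecOn ⊤) (((e₀' i).pull s).ofInvPull s)
  let a : ∀ i, Γ(Z, W i) := fun i => res (le_inf le_top (hWs (W i))) (b i)
  let e : ∀ i, L.SecOn (p ⁻¹ᵁ W i) := fun i => (e₀ i).scale ((p.app (W i)).hom (a i))
  have hau : ∀ i, IsUnit (a i) := fun i => by
    refine isUnit_of_res (fun y => W i ⊓ (L.pull s).U y) (fun y => inf_le_left)
      (fun z hz => ⟨z, hz, (L.pull s).mem z⟩) fun y => ?_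
    rw [res_res, hb i y _ _ inf_le_right]
    refine ((hσu y).map _).mul ?_
    have hu : IsUnit ((e₀' i).s (s y)) := by
      refine isUnit_of_res (fun _ : Unit => (p ⁻¹ᵁ W i) ⊓ L.U (s y)) (fun _ => le_rfl)
        (fun z hz => ⟨(), hz⟩) fun _ => ?_
      exact IsUnit.of_mul_eq_one _ ((mul_comm _ _).trans (he₀' i (s y) _ inf_le_left inf_le_right))
    exact (hu.map _).map _
  have heu : ∀ i x, IsUnit ((e i).s x) := fun i x => (((hau i).map _).map _).mul (he₀ i x)
  have hes : ∀ i y (A : Z.Opens) (hA : A ≤ W i) (hy : A ≤ (L.pull s).U y),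
      ((e i).pull s).val y (hA.trans (hWs _)) hy = (σ₀.toSecOn ⊤).val y le_top hy := by
    intro i y A hA hy
    let B : M.Opens := p ⁻¹ᵁ W i ⊓ L.U (s y)
    have hB : A ≤ s ⁻¹ᵁ B := fun z hz => ⟨hWs _ (hA hz), hy hz⟩
    have h1 : res hB ((s.app B).hom (res (inf_le_left : B ≤ _) ((p.app (W i)).hom (a i)))) =
        res hA (a i) := by
      rw [← res_app s (inf_le_left : B ≤ _) (hA.trans (hWs _)) hB]
      have hh := congrArg (res hA) (res_app_of_eq_id hs
        (h := (hWs (W i) : W i ≤ (s ≫ p) ⁻¹ᵁ W i)) (a i))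
      rw [res_res] at hh
      exact hh
    rw [SecOn.pull_val s (e i) y hB inf_le_left inf_le_right, SecOn.scale_val, map_mul, map_mul,
      h1, res_res, hb i y A _ hy]
    rw [← SecOn.pull_val s (e₀ i) y hB inf_le_left inf_le_right (hA.trans (hWs _)) hy]
    have hee : ((e₀ i).pull s).val y (hA.trans (hWs _)) hy *
        (show Γ(Z, A) from ((e₀' i).pull s).val y (hA.trans (hWs _)) hy) = 1 := by
      rw [SecOn.pull_val s (e₀ i) y hB inf_le_left inf_le_right]
      refine (congrArg₂ (· * ·) rfl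
        (SecOn.pull_val s (e₀' i) y hB inf_le_left inf_le_right _ _)).trans ?_
      refine ((map_mul (res hB) _ _).symm.trans (congrArg _ (map_mul (s.app B).hom _ _).symm)).trans ?_
      rw [show (e₀ i).val (s y) inf_le_left inf_le_right *
        (show Γ(M, B) from (e₀' i).val (s y) inf_le_left inf_le_right) = 1 from he₀' i (s y) B _ _,
        map_one, map_one]
    exact (mul_assoc _ _ _).trans
      ((congrArg (_ * ·) ((mul_comm _ _).trans hee)).trans (mul_one _))
  choose e' he' using fun i => exists_secOn_inv (e i) (heu i)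
  have hagree : ∀ i j x (A : M.Opens) (hi : A ≤ p ⁻¹ᵁ W i) (hj : A ≤ p ⁻¹ᵁ W j)
      (hx : A ≤ L.U x), (e i).val x hi hx = (e j).val x hj hx := by
    intro i j x A hi hj hx
    obtain ⟨c₀, hc₀⟩ := exists_pairing (e i) (e' j)
    have hPi : p ⁻¹ᵁ (W i ⊓ W j) ≤ p ⁻¹ᵁ W i := fun z hz => hz.1
    have hPj : p ⁻¹ᵁ (W i ⊓ W j) ≤ p ⁻¹ᵁ W j := fun z hz => hz.2
    let c : Γ(M, p ⁻¹ᵁ (W i ⊓ W j)) := res (le_inf hPi hPj) c₀
    have hc : c = 1 := by
      refine hrig i j c (eq_of_res_eq
        (fun y => s ⁻¹ᵁ (p ⁻¹ᵁ (W i ⊓ W j)) ⊓ (L.pull s).U y)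
        (fun y => inf_le_left) (fun z hz => ⟨z, hz, (L.pull s).mem z⟩) fun y => ?_)
      let B : M.Opens := p ⁻¹ᵁ (W i ⊓ W j) ⊓ L.U (s y)
      set A' := s ⁻¹ᵁ (p ⁻¹ᵁ (W i ⊓ W j)) ⊓ (L.pull s).U y
      have hB : A' ≤ s ⁻¹ᵁ B := le_rfl
      have hAi : A' ≤ W i := (inf_le_left.trans (hsW _)).trans inf_le_left
      have hAj : A' ≤ W j := (inf_le_left.trans (hsW _)).trans inf_le_right
      rw [map_one, res_app s (inf_le_left : B ≤ _) inf_le_left hB, res_res,
        hc₀ (s y) B _ inf_le_right, map_mul, map_mul]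
      rw [← SecOn.pull_val s (e i) y hB (inf_le_left.trans hPi) inf_le_right
        (hAi.trans (hWs _)) inf_le_right]
      have hj' : ((e j).pull s).val y (hAj.trans (hWs _)) inf_le_right *
          res hB ((s.app B).hom (show Γ(M, B) from
            (e' j).val (s y) (inf_le_left.trans hPj) inf_le_right)) = 1 := by
        rw [SecOn.pull_val s (e j) y hB (inf_le_left.trans hPj) inf_le_right, ← map_mul, ← map_mul,
          show (e j).val (s y) (inf_le_left.trans hPj) inf_le_right * (show Γ(M, B) from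
            (e' j).val (s y) (inf_le_left.trans hPj) inf_le_right) = 1 from he' j (s y) B _ _,
          map_one, map_one]
      rw [hes i y A' hAi inf_le_right, ← hes j y A' hAj inf_le_right]
      exact hj'
    have hA : A ≤ p ⁻¹ᵁ (W i ⊓ W j) := fun z hz => ⟨hi hz, hj hz⟩
    have e1 := congrArg (res hA) hc
    rw [res_res, map_one, hc₀ x A _ hx] at e1
    have e2 : (e j).val x hj hx * (show Γ(M, A) from (e' j).val x hj hx) = 1 := he' j x A hj hx
    linear_combination (e j).val x hj hx * e1 - (e i).val x hi hx * e2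
  refine isTrivial_of_cover (fun i => p ⁻¹ᵁ W i) ?_ (fun i x => (e i).s x) heu
    (fun i x y A h₁ h₂ h₃ => (e i).rel x y A h₁ h₂ h₃)
    fun i j x A h₁ h₂ =>
      hagree i j x A (h₁.trans inf_le_left) (h₂.trans inf_le_left) (h₁.trans inf_le_right)
  rw [← Scheme.Hom.preimage_iSup, hW, Scheme.Hom.preimage_top]

end FLTAgent.AbScheme
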