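import Mathlib

/-!
# Tensor products of domains over an algebraically closed field
-/

set_option autoImplicit false

open TensorProduct

namespace FLTAgent.AbScheme

variable {k : Type*} [Field k] [IsAlgClosed k] {A B : Type*} [CommRing A] [IsDomain A]
  [Algebra k A] [CommRing B] [IsDomain B] [Algebra k B]

/-- A tensor product of two domains over an algebraically closed field is a domain, finite type
case. -/
theorem noZeroDivisors_tensor_of_finiteType [Algebra.FiniteType k A] (s t : A ⊗[k] B)
    (h : s * t = 0) : s = 0 ∨ t = 0 := by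
  classical
  let b := Module.Free.chooseBasis k B
  let e := Algebra.TensorProduct.basis A b
  by_contra hne
  obtain ⟨hs, ht⟩ := not_or.mp hne
  obtain ⟨i, hi⟩ : ∃ i, e.repr s i ≠ 0 := by
    by_contra hcon
    push Not at hcon
    exact hs (e.repr.injective (Finsupp.ext fun i => by simp [hcon i]))
  obtain ⟨j, hj⟩ : ∃ j, e.repr t j ≠ 0 := by
    by_contra hcon
    push Not at hcon
    exact ht (e.repr.injective (Finsupp.ext fun i => by simp [hcon i]))
  have hprod : e.repr s i * e.repr t j ≠ 0 := mul_ne_zero hi hj
  have : IsJacobsonRing A := isJacobsonRing_of_finiteType (A := k) (B := A)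
  have hj0 : e.repr s i * e.repr t j ∈ Ideal.jacobson (⊥ : Ideal A) := by
    rw [Ideal.jacobson, Ideal.mem_sInf]
    rintro m ⟨-, hm⟩
    have := hm
    have : Algebra.FiniteType k (A ⧸ m) := Algebra.FiniteType.trans ‹_› inferInstance
    let := Ideal.Quotient.field m
    have : Module.Finite k (A ⧸ m) := finite_of_finite_type_of_isJacobsonRing k (A ⧸ m)
    let q : (A ⧸ m) ≃ₐ[k] k :=
      (AlgEquiv.ofBijective (Algebra.ofId k (A ⧸ m))
        (IsAlgClosed.algebraMap_bijective_of_isIntegral)).symm
    let χ : A →ₐ[k] k := q.toAlgHom.comp (Ideal.Quotient.mkₐ k m)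
    let F : A ⊗[k] B →ₐ[k] B := Algebra.TensorProduct.lift ((Algebra.ofId k B).comp χ)
      (AlgHom.id k B) fun _ _ => Commute.all _ _
    have key : ∀ (u : A ⊗[k] B) (l), b.repr (F u) l = χ (e.repr u l) := by
      intro u l
      induction u using TensorProduct.induction_on with
      | zero => simp
      | tmul a r =>
        have hF : F (a ⊗ₜ[k] r) = χ a • r := by
          rw [Algebra.smul_def]; simp [F]
        rw [hF, map_smul, Finsupp.smul_apply, Algebra.TensorProduct.basis_repr_tmul,
          Finsupp.smul_apply, Finsupp.mapRange_apply, smul_eq_mul, smul_eq_mul, map_mul,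
          AlgHom.commutes]
        rfl
      | add u v hu hv =>
        rw [map_add, map_add, map_add, Finsupp.add_apply, Finsupp.add_apply, hu, hv, map_add]
    have hker : ∀ a, χ a = 0 → a ∈ m := fun a ha => by
      have : Ideal.Quotient.mkₐ k m a = 0 := q.injective (by simpa [χ] using ha)
      exact Ideal.Quotient.eq_zero_iff_mem.mp this
    rcases mul_eq_zero.mp (show F s * F t = 0 by rw [← map_mul, h, map_zero]) with h0 | h0
    · exact Ideal.mul_mem_right _ _ (hker _ (by rw [← key, h0, map_zero, Finsupp.zero_apply]))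
    · exact Ideal.mul_mem_left _ _ (hker _ (by rw [← key, h0, map_zero, Finsupp.zero_apply]))
  rw [IsJacobsonRing.out ‹IsJacobsonRing A› (Ideal.isPrime_bot (α := A)).isRadical] at hj0
  exact hprod (by simpa using hj0)

/-- A tensor product of two domains over an algebraically closed field is a domain. -/
theorem isDomain_tensorProduct : IsDomain (A ⊗[k] B) := by
  have : Nontrivial (A ⊗[k] B) :=
    (Algebra.TensorProduct.includeRight_injective (R := k)
      (FaithfulSMul.algebraMap_injective k A) (B := B)).nontrivial
  have : NoZeroDivisors (A ⊗[k] B) := ⟨fun {s t} h => by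
    obtain ⟨S, hS⟩ := TensorProduct.exists_finset s
    obtain ⟨S', hS'⟩ := TensorProduct.exists_finset t
    classical
    let A' := Algebra.adjoin k (↑((S ∪ S').image Prod.fst) : Set A)
    have : Algebra.FiniteType k A' :=
      (Subalgebra.fg_iff_finiteType _).mp (Subalgebra.fg_adjoin_finset _)
    let g := Algebra.TensorProduct.map A'.val (AlgHom.id k B)
    have hg : Function.Injective g :=
      Module.Flat.rTensor_preserves_injective_linearMap A'.val.toLinearMap Subtype.val_injective
    have hmem : ∀ (T : Finset (A × B)), T ⊆ S ∪ S' → ∀ i ∈ T, i.1 ∈ A' := fun T hT i hi =>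
      Algebra.subset_adjoin (Finset.mem_coe.mpr (Finset.mem_image_of_mem Prod.fst (hT hi)))
    have hlift : ∀ (T : Finset (A × B)), T ⊆ S ∪ S' →
        (∑ i ∈ T, i.1 ⊗ₜ[k] i.2) ∈ Set.range g := fun T hT =>
      ⟨∑ i ∈ T.attach, (⟨i.1.1, hmem T hT i.1 i.2⟩ : A') ⊗ₜ[k] i.1.2, by
        rw [map_sum, ← Finset.sum_attach T]; rfl⟩
    obtain ⟨s', hs'⟩ := hlift S Finset.subset_union_left
    obtain ⟨t', ht'⟩ := hlift S' Finset.subset_union_right
    rw [← hS] at hs'
    rw [← hS'] at ht'
    rcases noZeroDivisors_tensor_of_finiteType s' t'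
        (hg (by rw [map_mul, hs', ht', h, map_zero])) with h0 | h0
    · exact Or.inl (by rw [← hs', h0, map_zero])
    · exact Or.inr (by rw [← ht', h0, map_zero])⟩
  exact NoZeroDivisors.to_isDomain _

end FLTAgent.AbScheme
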