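import Fermat.Agent.AbScheme.Bridge.Charts
import Fermat.Agent.AbScheme.Boundary
import Fermat.Agent.AbScheme.Growth
import Fermat.Agent.AbScheme.Cube.Defs
import Fermat.Agent.AbScheme.Bridge.TensorDomain

/-!
The cover model of a variety with a base point, and the algebra of constants of the boxes.
-/

set_option autoImplicit false
set_option linter.unusedSectionVars false
set_option linter.style.haveILetI false

noncomputable section

universe u

namespace FLTAgent.AbScheme

open CategoryTheory CategoryTheory.Limits AlgebraicGeometry TopologicalSpace Opposite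
open scoped TensorProduct

variable {K : Type u} [Field K]

/-- A cover model with the opens it comes from. -/
structure Var.Model (V : Var K) (p : Spec (CommRingCat.of K) ⟶ V.X) : Type (u + 1) where
  /-- The algebraic data. -/
  cm : Cube.CoverModel K V.fn
  /-- The opens. -/
  U : cm.ι → V.X.Opens
  affine : ∀ i, IsAffineOpen (U i)
  nonempty : ∀ i, (U i : Set V.X).Nonempty
  cover : ⨆ i, U i = ⊤
  C_eq : ∀ i, cm.C i = V.ringOf (U i)
  ev_eq : ∀ h : cm.C cm.base ≤ V.ringOf (U cm.base),
    ∀ φ : V.ringOf (U cm.base) →ₐ[K] K, φ.comp (Subalgebra.inclusion h) = cm.ev →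
      spMap φ ≫ V.chart (affine cm.base) (nonempty cm.base) = p

/-- The equation of an effective divisor on an open set is regular there. -/
theorem CDiv.IsEff.eq_mem_regAt {V : Var K} {D : CDiv V.X} (hD : D.IsEff) {f : V.fnˣ} {y : V.X}
    (h : D.1 y = QuotientGroup.mk f) : (f : V.fn) ∈ regAt y := by
  obtain ⟨f', h1, h2⟩ := hD y
  have := mul_mem_regAt_congr (h1.symm.trans h) (a := 1) (by rw [one_mul]; exact h2)
  rwa [one_mul] at this

/-- Where the divisor vanishes its equation is a unit. -/
theorem CDiv.IsBoundary.inv_mem_regAt {V : Var K} {D : CDiv V.X} {U : V.X.Opens}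
    (hD : D.IsBoundary U) {f : V.fnˣ} {y : V.X} (h : D.1 y = QuotientGroup.mk f) (hy : y ∈ U) :
    (((f : V.fnˣ) : V.fn))⁻¹ ∈ regAt y := by
  have h1 : D.1 y = 1 := by
    by_contra hne
    exact (hD.supp_eq ▸ (show y ∈ D.supp from hne) : y ∈ (U : Set V.X)ᶜ) hy
  rw [← Units.val_inv_eq_inv_val]
  exact (unit_mem_regAt ((QuotientGroup.eq_one_iff f).1 (h.symm.trans h1))).2

variable [IsAlgClosed K]

/-- A finite dimensional subalgebra of a field over an algebraically closed field is trivial. -/
theorem mem_bot_of_finiteDimensional {F : Type u} [Field F] [Algebra K F] (S : Subalgebra K F)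
    [FiniteDimensional K S] {x : F} (hx : x ∈ S) : x ∈ (⊥ : Subalgebra K F) := by
  obtain ⟨c, hc⟩ := (IsAlgClosed.algebraMap_bijective_of_isIntegral (k := K) (K := S)).2 ⟨x, hx⟩
  exact Algebra.mem_bot.2 ⟨c, congrArg Subtype.val hc⟩

theorem Var.exists_model (V : Var K) (p : Spec (CommRingCat.of K) ⟶ V.X) (hp : p ≫ V.str = 𝟙 _) :
    Nonempty (V.Model p) := by
  have : CompactSpace V.X := QuasiCompact.compactSpace_of_compactSpace V.str
  -- the chart at infinity
  obtain ⟨_, ⟨U₀, hU₀', rfl⟩, hU₀g, -⟩ :=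
    V.X.isBasis_affineOpens.exists_subset_of_mem_open (Set.mem_univ (genericPoint V.X)) isOpen_univ
  have hU₀ : IsAffineOpen U₀ := hU₀'
  have hne₀ : (U₀ : Set V.X).Nonempty := ⟨_, hU₀g⟩
  obtain ⟨D, hD⟩ := exists_isBoundary V hU₀ hne₀
  -- a finite cover by affine opens with one equation
  have key : ∀ x : V.X, ∃ (P : V.X.Opens) (f : V.fnˣ), IsAffineOpen P ∧ x ∈ P ∧
      ∀ y ∈ P, D.1 y = QuotientGroup.mk f := fun x => by
    obtain ⟨O, hxO, f, hf⟩ := D.2 x
    obtain ⟨_, ⟨P, hP, rfl⟩, hxP, hPO⟩ :=
      V.X.isBasis_affineOpens.exists_subset_of_mem_open hxO O.isOpen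
    exact ⟨P, f, hP, hxP, fun y hy => hf y (hPO hy)⟩
  choose P f hPa hxP hfP using key
  obtain ⟨t, ht⟩ := isCompact_univ.elim_finite_subcover (fun x => (P x : Set V.X))
    (fun x => (P x).isOpen) fun x _ => Set.mem_iUnion.2 ⟨x, hxP x⟩
  obtain ⟨x₀, hx₀t, hx₀⟩ :=
    Set.mem_iUnion₂.1 (ht (Set.mem_univ (p (IsLocalRing.closedPoint K))))
  let ι : Type u := Option t
  let U : ι → V.X.Opens := fun i => i.elim U₀ fun x => P x.1
  let h : ι → V.fn := fun i => i.elim 1 fun x => (f x.1 : V.fn)
  have hUa : ∀ i, IsAffineOpen (U i) := fun i => by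
    cases i with
    | none => exact hU₀
    | some x => exact hPa x.1
  have hUne : ∀ i, (U i : Set V.X).Nonempty := fun i => by
    cases i with
    | none => exact hne₀
    | some x => exact ⟨x.1, hxP x.1⟩
  have hcov : ∀ y, ∃ i, y ∈ U i := fun y => by
    obtain ⟨x, hxt, hy⟩ := Set.mem_iUnion₂.1 (ht (Set.mem_univ y))
    exact ⟨some ⟨x, hxt⟩, hy⟩
  have hne : ∀ i, h i ≠ 0 := fun i => by
    cases i with
    | none => exact one_ne_zero
    | some x => exact (f x.1).ne_zero
  have hmem : ∀ i, h i ∈ V.ringOf (U i) := fun i => by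
    cases i with
    | none => exact one_mem _
    | some x => exact fun y hy => hD.eff.eq_mem_regAt (hfP x.1 y hy)
  have hsup : ∀ i, V.ringOf (U i) ⊔ V.ringOf U₀ = V.ringOf (U i ⊓ U₀) := fun i =>
    (V.ringOf_inf (hUa i) (hUne i) hU₀ hne₀).symm
  have hbd : ∀ i, ∀ a ∈ V.ringOf (U i) ⊔ V.ringOf U₀, ∃ m : ℕ,
      h i ^ m * a ∈ V.ringOf (U i) := by
    intro i
    let S : Subalgebra K V.fn :=
      { carrier := {a | ∃ m : ℕ, h i ^ m * a ∈ V.ringOf (U i)}
        mul_mem' := by
          rintro a b ⟨m, hm⟩ ⟨m', hm'⟩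
          exact ⟨m + m', by rw [pow_add, mul_mul_mul_comm]; exact mul_mem hm hm'⟩
        one_mem' := ⟨0, by simp [one_mem]⟩
        add_mem' := by
          rintro a b ⟨m, hm⟩ ⟨m', hm'⟩
          refine ⟨m + m', ?_⟩
          rw [mul_add, pow_add]
          refine add_mem ?_ ?_
          · rw [mul_comm (h i ^ m), mul_assoc]; exact mul_mem (pow_mem (hmem i) _) hm
          · rw [mul_assoc]; exact mul_mem (pow_mem (hmem i) _) hm'
        zero_mem' := ⟨0, by simp [zero_mem]⟩
        algebraMap_mem' := fun c => ⟨0, by simp⟩ }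
    intro a ha
    refine (sup_le (fun b hb => ⟨0, by simpa using hb⟩) ?_ : _ ≤ S) ha
    intro b hb
    obtain ⟨m, hm⟩ := exists_mem_Lspace_pow hD hb
    refine ⟨m, fun y hy => ?_⟩
    cases i with
    | none => simpa [h] using hb y hy
    | some x =>
      have := mem_Lspace_iff.1 hm y (f x.1 ^ m)
        (show D.1 y ^ m = _ by rw [hfP x.1 y hy]; rfl)
      rwa [Units.val_pow_eq_pow_val, mul_comm] at this
  have hLle : ∀ (m : ℕ) (a : V.fn), (∀ i, h i ^ m * a ∈ V.ringOf (U i)) → a ∈ Lspace (D ^ m) := by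
    intro m a ha
    refine mem_Lspace_of_exists fun y => ?_
    obtain ⟨x, hxt, hy⟩ := Set.mem_iUnion₂.1 (ht (Set.mem_univ y))
    refine ⟨f x ^ m, show D.1 y ^ m = _ by rw [hfP x y hy]; rfl, ?_⟩
    rw [Units.val_pow_eq_pow_val, mul_comm]
    exact ha (some ⟨x, hxt⟩) y hy
  have hfin : ∀ m : ℕ, FiniteDimensional K ↥(⨅ i, (V.ringOf (U i)).toSubmodule.comap
      (LinearMap.mulLeft K (h i ^ m))) := fun m => by
    have := finiteDimensional_Lspace hD m
    refine Submodule.finiteDimensional_of_le (S₂ := Lspace (D ^ m)) fun a ha => hLle m a fun i => ?_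
    exact (Submodule.mem_iInf _).1 ha i
  obtain ⟨ev, hev⟩ := V.exists_character (hUa (some ⟨x₀, hx₀t⟩)) (hUne _) p hp (by
    rintro _ ⟨z, rfl⟩
    rw [Subsingleton.elim z (IsLocalRing.closedPoint K)]
    exact hx₀)
  let cm : Cube.CoverModel K V.fn :=
    { ι := ι
      o := none
      C := fun i => V.ringOf (U i)
      h := h
      h_mem := hmem
      h_inv := fun i => by
        show _ ∈ V.ringOf (U i) ⊔ V.ringOf U₀
        rw [hsup]
        intro y hy
        cases i with
        | none => simpa [h] using one_mem (regAt y)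
        | some x => exact hD.inv_mem_regAt (hfP x.1 y hy.1) hy.2
      h_ne := hne
      bounded := hbd
      const := fun a ha => by
        have := finiteDimensional_Lspace hD 0
        let S : Subalgebra K V.fn := ⨅ i, V.ringOf (U i)
        have : FiniteDimensional K S := Submodule.finiteDimensional_of_le
          (S₁ := S.toSubmodule) (S₂ := Lspace (D ^ 0)) fun b hb => hLle 0 b fun i => by
            simpa using (Algebra.mem_iInf.1 hb) i
        exact mem_bot_of_finiteDimensional S (Algebra.mem_iInf.2 ha)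
      finite := hfin
      base := some ⟨x₀, hx₀t⟩
      ev := ev }
  refine ⟨{ cm := cm, U := U, affine := hUa, nonempty := hUne, cover := ?_,
            C_eq := fun i => rfl, ev_eq := ?_ }⟩
  · exact eq_top_iff.2 fun y _ => Opens.mem_iSup.2 (hcov y)
  · intro hle φ hφ
    have e : φ = ev := AlgHom.ext fun a => AlgHom.congr_fun hφ a
    rw [e]
    exact hev

/-- The tensor product of two function fields is a domain. -/
theorem Var.isDomain_tensor (V W : Var K) : IsDomain (V.fn ⊗[K] W.fn) :=
  isDomain_tensorProduct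

section Constants

variable {F M : Type u} [Field F] [Algebra K F] [AddCommGroup M] [Module K M]

/-- A coordinate of a tensor. -/
def tensorCoord {A : Type u} [AddCommGroup A] [Module K A] (φ : M →ₗ[K] K) : A ⊗[K] M →ₗ[K] A :=
  (TensorProduct.rid K A).toLinearMap ∘ₗ φ.lTensor A

theorem exists_eq_one_tmul {A : Type u} [Ring A] [Algebra K A] (z : A ⊗[K] M)
    (h : ∀ φ : M →ₗ[K] K, ∃ c : K, tensorCoord φ z = algebraMap K A c) :
    ∃ m : M, z = (1 : A) ⊗ₜ[K] m := by
  classical
  let b := Module.Free.chooseBasis K M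
  choose c hc using fun i => h (b.coord i)
  set e := TensorProduct.equivFinsuppOfBasisRight (M := A) b
  refine ⟨∑ i ∈ (e z).support, c i • b i, ?_⟩
  conv_lhs => rw [← e.symm_apply_apply z]
  rw [TensorProduct.equivFinsuppOfBasisRight_symm_apply, Finsupp.sum, TensorProduct.tmul_sum]
  refine Finset.sum_congr rfl fun i _ => ?_
  have : e z i = algebraMap K A (c i) := by
    rw [← hc i]
    exact TensorProduct.equivFinsuppOfBasisRight_apply b z i
  rw [this, Algebra.algebraMap_eq_smul_one, TensorProduct.smul_tmul]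

/-- The coordinates of the image of a product of subalgebras lie in the first one. -/
theorem tensorCoord_mem {A N : Type u} [CommRing A] [Algebra K A] [CommRing N] [Algebra K N]
    (S : Subalgebra K A) {B : Type u} [CommRing B] [Algebra K B] (g : B →ₐ[K] N)
    (φ : N →ₗ[K] K) (t : S ⊗[K] B) :
    tensorCoord φ (Algebra.TensorProduct.map S.val g t) ∈ S := by
  induction t using TensorProduct.induction_on with
  | zero => simp
  | tmul s r =>
    simpa [tensorCoord] using S.smul_mem s.2 (φ (g r))
  | add u v hu hv => rw [map_add, map_add]; exact add_mem hu hv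

end Constants

/-- Functions in every box come from the parameters. -/
theorem Cube.exists_eq_tmul_of_forall_mem {F G : Type u} [Field F] [Algebra K F] [Field G]
    [Algebra K G] (MX : Cube.CoverModel K F) (MY : Cube.CoverModel K G) (R : Type u) [CommRing R]
    [Algebra K R] {x : Cube.Amb K F G R} (h : ∀ a, x ∈ Cube.ring₁ MX MY a R) :
    ∃ r : R, x = (1 : F ⊗[K] G) ⊗ₜ[K] r := by
  refine exists_eq_one_tmul x fun φ => ?_
  -- the coordinate lies in every product of charts
  have hz : ∀ i j, tensorCoord φ x ∈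
      (Algebra.TensorProduct.map (MX.C i).val (MY.C j).val).range := fun i j => by
    obtain ⟨t, ht⟩ := h (i, j)
    rw [← ht]
    clear ht
    induction t using TensorProduct.induction_on with
    | zero => simp
    | tmul s r =>
      exact ⟨φ r • s, by simp [tensorCoord]⟩
    | add u v hu hv => rw [map_add, map_add]; exact add_mem hu hv
  obtain ⟨g, hg⟩ : ∃ g : G, tensorCoord φ x = (1 : F) ⊗ₜ[K] g := by
    refine exists_eq_one_tmul _ fun ψ => ?_
    have hC : ∀ i, tensorCoord ψ (tensorCoord φ x) ∈ MX.C i := fun i => by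
      obtain ⟨t, ht⟩ := hz i MY.o
      rw [← ht]
      exact tensorCoord_mem (MX.C i) (MY.C MY.o).val ψ t
    obtain ⟨c, hc⟩ := Algebra.mem_bot.1 (MX.const _ hC)
    exact ⟨c, hc.symm⟩
  obtain ⟨ε, hε⟩ := Module.Projective.exists_dual_ne_zero K (one_ne_zero (α := F))
  have hE : ∀ j, g ∈ MY.C j := fun j => by
    obtain ⟨t, ht⟩ := hz MX.o j
    have key : (TensorProduct.lid K G).toLinearMap.comp (ε.rTensor G)
        (Algebra.TensorProduct.map (MX.C MX.o).val (MY.C j).val t) ∈ MY.C j := by
      clear ht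
      induction t using TensorProduct.induction_on with
      | zero => simp
      | tmul s r => simpa using (MY.C j).smul_mem r.2 (ε s.1)
      | add u v hu hv => rw [map_add, map_add]; exact add_mem hu hv
    rw [show Algebra.TensorProduct.map (MX.C MX.o).val (MY.C j).val t = (1 : F) ⊗ₜ[K] g from
      ht.trans hg] at key
    simp only [LinearMap.coe_comp, LinearEquiv.coe_coe, Function.comp_apply,
      LinearMap.rTensor_tmul, TensorProduct.lid_tmul] at key
    have := (MY.C j).smul_mem key (ε 1)⁻¹
    rwa [smul_smul, inv_mul_cancel₀ hε, one_smul] at this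
  obtain ⟨c, hc⟩ := Algebra.mem_bot.1 (MY.const _ hE)
  refine ⟨c, ?_⟩
  rw [hg, ← hc, Algebra.algebraMap_eq_smul_one, Algebra.algebraMap_eq_smul_one,
    TensorProduct.tmul_smul]
  rfl

end FLTAgent.AbScheme
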