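import Fermat.Agent.AbScheme.Bridge.Box
import Fermat.Agent.AbScheme.Bridge.Frames
import Fermat.Agent.AbScheme.Bridge.Model

/-!
The bundle of rank one matrices of a line bundle on the product over a parameter ring, and its
trivialisations.
-/

set_option autoImplicit false
set_option linter.unusedSectionVars false
set_option linter.style.haveILetI false

noncomputable section

universe u

namespace FLTAgent.AbScheme

open CategoryTheory CategoryTheory.Limits AlgebraicGeometry TopologicalSpace Opposite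
open scoped TensorProduct Matrix

variable {K : Type u} [Field K] {V W : Var K} {px : Spec (CommRingCat.of K) ⟶ V.X}
  {py : Spec (CommRingCat.of K) ⟶ W.X} (MX : V.Model px) (MY : W.Model py)

theorem Var.Model.nonempty_inf {p : Spec (CommRingCat.of K) ⟶ V.X} (M : V.Model p) (i j : M.cm.ι) :
    ((M.U i ⊓ M.U j : V.X.Opens) : Set V.X).Nonempty :=
  ⟨genericPoint V.X, ((genericPoint_spec V.X).mem_open_set_iff (M.U i).isOpen).2
      (by simpa using M.nonempty i),
    ((genericPoint_spec V.X).mem_open_set_iff (M.U j).isOpen).2 (by simpa using M.nonempty j)⟩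

/-- The chart of an open of a cover model. -/
def Var.Model.ch {p : Spec (CommRingCat.of K) ⟶ V.X} (M : V.Model p) (i : M.cm.ι) :
    Ch V.str V.gen (M.cm.C i).val (M.U i) :=
  V.ch (M.affine i) (M.nonempty i) (M.C_eq i)

/-- The chart of an intersection in a cover model. -/
def Var.Model.ch₂ {p : Spec (CommRingCat.of K) ⟶ V.X} (M : V.Model p) (i j : M.cm.ι) :
    Ch V.str V.gen (M.cm.C i ⊔ M.cm.C j).val (M.U i ⊓ M.U j) :=
  haveI : V.X.IsSeparated := ⟨by rw [← terminal.comp_from V.str]; infer_instance⟩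
  V.ch ((M.affine i).inf (M.affine j)) (M.nonempty_inf i j) (by
    rw [V.ringOf_inf (M.affine i) (M.nonempty i) (M.affine j) (M.nonempty j), M.C_eq, M.C_eq])

variable (S : Type u) [CommRing S] [Algebra K S]

/-- The boxes as opens. -/
abbrev bOpen (a : Cube.Box MX.cm MY.cm) : (MM V W S).Opens :=
  boxO V W S (MX.U a.1) (MY.U a.2)

/-- The chart of a box. -/
def bCh (a : Cube.Box MX.cm MY.cm) :=
  boxCh S (MX.ch a.1) (MY.ch a.2)

/-- The chart of the intersection of two boxes. -/
def bCh₂ (a b : Cube.Box MX.cm MY.cm) :=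
  boxCh S (MX.ch₂ a.1 b.1) (MY.ch₂ a.2 b.2)

theorem bOpen_inf (a b : Cube.Box MX.cm MY.cm) :
    bOpen MX MY S a ⊓ bOpen MX MY S b =
      boxO V W S (MX.U a.1 ⊓ MX.U b.1) (MY.U a.2 ⊓ MY.U b.2) :=
  boxO_inf V W S _ _ _ _

theorem le_eta (a : Cube.Box MX.cm MY.cm) : ⊤ ≤ eta V W S ⁻¹ᵁ bOpen MX MY S a :=
  (bCh MX MY S a).top_le le_rfl

theorem le_eta₂ (a b : Cube.Box MX.cm MY.cm) :
    ⊤ ≤ eta V W S ⁻¹ᵁ (bOpen MX MY S a ⊓ bOpen MX MY S b) :=
  (bCh₂ MX MY S a b).top_le (bOpen_inf MX MY S a b).ge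

theorem iSup_bOpen : ⨆ a, bOpen MX MY S a = ⊤ := by
  refine Opens.ext (Set.eq_univ_of_forall fun x => ?_)
  obtain ⟨i, hi⟩ := Opens.mem_iSup.1 (MX.cover ▸ Opens.mem_top
    (pullback.fst V.str W.str (pullback.fst (xyStr V W) (spStr K S) x)))
  obtain ⟨j, hj⟩ := Opens.mem_iSup.1 (MY.cover ▸ Opens.mem_top
    (pullback.snd V.str W.str (pullback.fst (xyStr V W) (spStr K S) x)))
  exact Opens.mem_iSup.2 ⟨(i, j), hi, hj⟩

theorem isAffineOpen_bOpen (a : Cube.Box MX.cm MY.cm) : IsAffineOpen (bOpen MX MY S a) :=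
  (bCh MX MY S a).isAffineOpen

theorem theta_mem_ring₁ (a : Cube.Box MX.cm MY.cm) (c : Γ(MM V W S, bOpen MX MY S a)) :
    theta S (le_eta MX MY S a) c ∈ Cube.ring₁ MX.cm MY.cm a S :=
  (bCh MX MY S a).rd_mem le_rfl _ c

theorem theta_mem_ring₂ (a b : Cube.Box MX.cm MY.cm)
    (c : Γ(MM V W S, bOpen MX MY S a ⊓ bOpen MX MY S b)) :
    theta S (le_eta₂ MX MY S a b) c ∈ Cube.ring₂ MX.cm MY.cm a b S :=
  (bCh₂ MX MY S a b).rd_mem (bOpen_inf MX MY S a b).ge _ c

theorem theta_injective (a : Cube.Box MX.cm MY.cm) :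
    Function.Injective (theta S (le_eta MX MY S a)) :=
  (bCh MX MY S a).rd_injective

theorem theta_injective₂ (a b : Cube.Box MX.cm MY.cm) :
    Function.Injective (theta S (le_eta₂ MX MY S a b)) := by
  have key : ∀ (O : (MM V W S).Opens),
      O = boxO V W S (MX.U a.1 ⊓ MX.U b.1) (MY.U a.2 ⊓ MY.U b.2) →
      ∀ h, Function.Injective (theta S (O := O) h) := by
    rintro _ rfl h
    exact (bCh₂ MX MY S a b).rd_injective
  exact key _ (bOpen_inf MX MY S a b) _

theorem exists_theta_eq (a : Cube.Box MX.cm MY.cm) {x : Cube.Amb K V.fn W.fn S}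
    (hx : x ∈ Cube.ring₁ MX.cm MY.cm a S) :
    ∃ c, theta S (le_eta MX MY S a) c = x :=
  (bCh MX MY S a).exists_rd_eq hx

theorem theta_res_left (a b : Cube.Box MX.cm MY.cm) (c : Γ(MM V W S, bOpen MX MY S a)) :
    theta S (le_eta₂ MX MY S a b) (res inf_le_left c) = theta S (le_eta MX MY S a) c :=
  theta_res S inf_le_left _ _ c

theorem theta_res_right (a b : Cube.Box MX.cm MY.cm) (c : Γ(MM V W S, bOpen MX MY S b)) :
    theta S (le_eta₂ MX MY S a b) (res inf_le_right c) = theta S (le_eta MX MY S b) c :=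
  theta_res S inf_le_right _ _ c

variable {R : Type u} [CommRing R] [Algebra K R] {L : LB (MM V W R)}
  (F : L.Framing (bOpen MX MY R))

/-- The matrices of a framing. -/
def toBundle : Cube.Bundle MX.cm MY.cm R where
  n := F.n
  T a b := (F.T a b).map (theta R (le_eta₂ MX MY R a b))
  mem_self a k l := by
    have e : F.T a a k l = res inf_le_left
        (res (le_inf le_rfl le_rfl : bOpen MX MY R a ≤ bOpen MX MY R a ⊓ bOpen MX MY R a)
          (F.T a a k l)) := by
      rw [res_res]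
      exact (res_self _).symm
    rw [Matrix.map_apply, e, theta_res_left]
    exact theta_mem_ring₁ MX MY R a _
  mem a b k l := theta_mem_ring₂ MX MY R a b _
  trans a b c := by
    let O := bOpen MX MY R a ⊓ bOpen MX MY R b ⊓ bOpen MX MY R c
    have hab : O ≤ bOpen MX MY R a ⊓ bOpen MX MY R b := inf_le_left
    have hbc : O ≤ bOpen MX MY R b ⊓ bOpen MX MY R c := inf_le_inf_right _ inf_le_right
    have hac : O ≤ bOpen MX MY R a ⊓ bOpen MX MY R c := inf_le_inf_right _ inf_le_left
    have hO : ⊤ ≤ eta V W R ⁻¹ᵁ O := fun x hx =>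
      ⟨le_eta₂ MX MY R a b hx, le_eta MX MY R c hx⟩
    have h := congrArg (fun M => M.map (theta R hO)) (F.trans a b c O hab hbc hac)
    simp only [Matrix.map_mul] at h
    refine Eq.trans (congrArg₂ (· * ·) ?_ ?_) (h.trans ?_) <;>
    · ext k l
      simp only [Matrix.map_apply]
      first
        | exact theta_res R _ hO _ _
        | exact (theta_res R _ hO _ _).symm
  trace a := by
    simp only [Matrix.trace, Matrix.diag, Matrix.map_apply]
    rw [← map_sum, F.one a, map_one]
  rankOne a b k k' l l' := by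
    simp only [Matrix.map_apply, ← map_mul, F.rankOne a b k k' l l']

/-- A trivialisation gives coordinates in the boxes. -/
theorem nonempty_triv (φ : R →ₐ[K] S) (h : (L.pull (bc V W φ)).IsTrivial) :
    Nonempty (Cube.Triv (toBundle MX MY F) φ) := by
  obtain ⟨vec⟩ := (F.pull (bc V W φ)).nonempty_vec h
  have e : ∀ a, bc V W φ ⁻¹ᵁ bOpen MX MY R a = bOpen MX MY S a := fun a =>
    bc_preimage_boxO V W φ _ _
  have hη : ∀ a, ⊤ ≤ eta V W S ⁻¹ᵁ (bc V W φ ⁻¹ᵁ bOpen MX MY R a) := fun a =>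
    (e a).symm ▸ le_eta MX MY S a
  have hη₂ : ∀ a b, ⊤ ≤ eta V W S ⁻¹ᵁ
      (bc V W φ ⁻¹ᵁ (bOpen MX MY R a ⊓ bOpen MX MY R b)) := fun a b x hx =>
    ⟨hη a hx, hη b hx⟩
  have hmem : ∀ (a) (c : Γ(MM V W S, bc V W φ ⁻¹ᵁ bOpen MX MY R a)),
      theta S (hη a) c ∈ Cube.ring₁ MX.cm MY.cm a S := by
    intro a
    have key : ∀ (O : (MM V W S).Opens), O = bOpen MX MY S a → ∀ h (c : Γ(MM V W S, O)),
        theta S h c ∈ Cube.ring₁ MX.cm MY.cm a S := by
      rintro _ rfl h c
      exact theta_mem_ring₁ MX MY S a c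
    exact key _ (e a) _
  have hT : ∀ a b k l,
      ((toBundle MX MY F).T a b).map (Cube.ambMap φ) k l =
        theta S (hη₂ a b) ((F.pull (bc V W φ)).T a b k l) := fun a b k l =>
    (theta_bc φ (hη₂ a b) (le_eta₂ MX MY R a b) (F.T a b k l)).symm
  refine ⟨⟨fun a k => theta S (hη a) (vec.v a k), fun a k => theta S (hη a) (vec.w a k),
    fun a k => hmem a _, fun a k => hmem a _, fun a b => funext fun k => ?_,
    fun a b => funext fun l => ?_, fun a => ?_⟩⟩
  · exact (congrArg₂ (fun M x => (M *ᵥ x) k) (Matrix.ext (hT a b))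
      (funext fun l => (theta_res S _ (hη₂ a b) _ _).symm)).trans
        (((RingHom.map_mulVec (theta S (hη₂ a b)) _ _ k).symm.trans
          (congrArg (theta S (hη₂ a b)) (congrFun (vec.v_rel a b) k))).trans
            (theta_res S _ _ (hη b) _))
  · exact (congrArg₂ (fun x M => (x ᵥ* M) l)
      (funext fun k => (theta_res S _ (hη₂ a b) _ _).symm) (Matrix.ext (hT a b))).trans
        (((RingHom.map_vecMul (theta S (hη₂ a b)) _ _ l).symm.trans
          (congrArg (theta S (hη₂ a b)) (congrFun (vec.w_rel a b) l))).trans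
            (theta_res S _ _ (hη a) _))
  · have h1 := congrArg (theta S (hη a)) (vec.one a)
    simp only [dotProduct, map_sum, map_mul, map_one] at h1
    exact h1

/-- Coordinates in the boxes give a trivialisation. -/
theorem isTrivial_of_triv (φ : R →ₐ[K] S) (h : Nonempty (Cube.Triv (toBundle MX MY F) φ)) :
    (L.pull (bc V W φ)).IsTrivial := by
  obtain ⟨t⟩ := h
  have e : ∀ a, bc V W φ ⁻¹ᵁ bOpen MX MY R a = bOpen MX MY S a := fun a =>
    bc_preimage_boxO V W φ _ _
  have hη : ∀ a, ⊤ ≤ eta V W S ⁻¹ᵁ (bc V W φ ⁻¹ᵁ bOpen MX MY R a) := fun a =>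
    (e a).symm ▸ le_eta MX MY S a
  have hη₂ : ∀ a b, ⊤ ≤ eta V W S ⁻¹ᵁ
      (bc V W φ ⁻¹ᵁ (bOpen MX MY R a ⊓ bOpen MX MY R b)) := fun a b x hx =>
    ⟨hη a hx, hη b hx⟩
  have hlift : ∀ a (x : Cube.Amb K V.fn W.fn S), x ∈ Cube.ring₁ MX.cm MY.cm a S →
      ∃ c, theta S (hη a) c = x := by
    intro a
    have key : ∀ (O : (MM V W S).Opens), O = bOpen MX MY S a → ∀ h,
        ∀ x : Cube.Amb K V.fn W.fn S, x ∈ Cube.ring₁ MX.cm MY.cm a S →
          ∃ c : Γ(MM V W S, O), theta S h c = x := by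
      rintro _ rfl h x hx
      exact exists_theta_eq MX MY S a hx
    exact key _ (e a) _
  have hinj : ∀ a b, Function.Injective (theta S (hη₂ a b)) := by
    intro a b
    have key : ∀ (O : (MM V W S).Opens), O = bOpen MX MY S a ⊓ bOpen MX MY S b →
        ∀ h, Function.Injective (theta S (O := O) h) := by
      rintro _ rfl h
      exact theta_injective₂ MX MY S a b
    exact key _ (by rw [← e a, ← e b]; rfl) _
  have hinj₁ : ∀ a, Function.Injective (theta S (hη a)) := by
    intro a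
    have key : ∀ (O : (MM V W S).Opens), O = bOpen MX MY S a →
        ∀ h, Function.Injective (theta S (O := O) h) := by
      rintro _ rfl h
      exact theta_injective MX MY S a
    exact key _ (e a) _
  have hT : ∀ a b k l,
      ((toBundle MX MY F).T a b).map (Cube.ambMap φ) k l =
        theta S (hη₂ a b) ((F.pull (bc V W φ)).T a b k l) := fun a b k l =>
    (theta_bc φ (hη₂ a b) (le_eta₂ MX MY R a b) (F.T a b k l)).symm
  choose v hv using fun a k => hlift a _ (t.v_mem a k)
  choose w hw using fun a k => hlift a _ (t.w_mem a k)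
  refine (F.pull (bc V W φ)).isTrivial_of_vec ?_ ⟨⟨v, w, fun a b => funext fun k => hinj a b ?_,
    fun a b => funext fun l => hinj a b ?_, fun a => hinj₁ a ?_⟩⟩
  · simp only [e]
    exact iSup_bOpen MX MY S
  · exact (RingHom.map_mulVec (theta S (hη₂ a b)) _ _ k).trans
      ((congrArg₂ (fun M x => (M *ᵥ x) k) (Matrix.ext (hT a b)).symm
          (funext fun l => (theta_res S _ _ (hη a) _).trans (hv a l))).trans
        (((congrFun (t.v_rel a b) k).trans (hv b k).symm).trans (theta_res S _ _ _ _).symm))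
  · exact (RingHom.map_vecMul (theta S (hη₂ a b)) _ _ l).trans
      ((congrArg₂ (fun x M => (x ᵥ* M) l)
          (funext fun k => (theta_res S _ _ (hη b) _).trans (hw b k))
          (Matrix.ext (hT a b)).symm).trans
        (((congrFun (t.w_rel a b) l).trans (hw a l).symm).trans (theta_res S _ _ _ _).symm))
  · simp only [dotProduct, map_sum, map_mul, map_one]
    exact (Finset.sum_congr rfl fun k _ => congrArg₂ (· * ·) (hw a k) (hv a k)).trans (t.one a)

end FLTAgent.AbScheme
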