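import Fermat.Agent.AbScheme.Sections
import Fermat.Agent.AbScheme.Growth.Chart

/-!
Charts of a variety and of fibre products read in tensor products of function fields.
-/

set_option autoImplicit false
set_option linter.unusedSectionVars false
set_option linter.style.haveILetI false

noncomputable section

universe u

namespace FLTAgent.AbScheme

open CategoryTheory CategoryTheory.Limits AlgebraicGeometry TopologicalSpace Opposite
open scoped TensorProduct

variable {K : Type u} [Field K]

/-- The structure map of the spectrum of an algebra. -/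
abbrev spStr (K B : Type u) [Field K] [CommRing B] [Algebra K B] :
    Spec (CommRingCat.of B) ⟶ Spec (CommRingCat.of K) :=
  Spec.map (CommRingCat.ofHom (algebraMap K B))

/-- The map of spectra of a homomorphism of algebras. -/
abbrev spMap {B C : Type u} [CommRing B] [CommRing C] [Algebra K B] [Algebra K C] (φ : B →ₐ[K] C) :
    Spec (CommRingCat.of C) ⟶ Spec (CommRingCat.of B) :=
  Spec.map (CommRingCat.ofHom φ.toRingHom)

theorem spMap_comp_spStr {B C : Type u} [CommRing B] [CommRing C] [Algebra K B] [Algebra K C]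
    (φ : B →ₐ[K] C) : spMap φ ≫ spStr K B = spStr K C := by
  rw [← Spec.map_comp, ← CommRingCat.ofHom_comp]
  exact congrArg (fun r => Spec.map (CommRingCat.ofHom r)) (RingHom.ext fun c => φ.commutes c)

/-- Maps of spectra compose. -/
theorem spMap_comp {B C D : Type u} [CommRing B] [CommRing C] [CommRing D] [Algebra K B]
    [Algebra K C] [Algebra K D] (φ : C →ₐ[K] D) (ψ : B →ₐ[K] C) :
    spMap φ ≫ spMap ψ = spMap (φ.comp ψ) := by
  rw [← Spec.map_comp, ← CommRingCat.ofHom_comp]
  rfl

/-- A map of spectra determines the homomorphism. -/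
theorem spMap_injective {B C : Type u} [CommRing B] [CommRing C] [Algebra K B] [Algebra K C]
    {φ ψ : B →ₐ[K] C} (h : spMap φ = spMap ψ) : φ = ψ :=
  AlgHom.ext fun x => RingHom.congr_fun (congrArg CommRingCat.Hom.hom (Spec.map_injective h)) x

/-- An over map out of an affine scheme is read as a homomorphism of algebras. -/
theorem exists_eq_spMap {B C : Type u} [CommRing B] [CommRing C] [Algebra K B] [Algebra K C]
    (g : Spec (CommRingCat.of C) ⟶ Spec (CommRingCat.of B)) (hg : g ≫ spStr K B = spStr K C) :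
    ∃ φ : B →ₐ[K] C, spMap φ = g := by
  obtain ⟨ψ, rfl⟩ := Spec.map_surjective g
  have h := RingHom.congr_fun (congrArg CommRingCat.Hom.hom
    (Spec.map_injective ((Spec.map_comp _ _).trans hg)))
  exact ⟨{ ψ.hom with commutes' := h }, rfl⟩

/-- The functions regular on an open set. -/
def Var.ringOf (V : Var K) (U : V.X.Opens) : Subalgebra K V.fn where
  toSubsemiring :=
    { carrier := {a | ∀ x ∈ U, a ∈ regAt x}
      mul_mem' := fun ha hb x hx => mul_mem (ha x hx) (hb x hx)
      one_mem' := fun x _ => one_mem (regAt x)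
      add_mem' := fun ha hb x hx => add_mem (ha x hx) (hb x hx)
      zero_mem' := fun x _ => zero_mem (regAt x) }
  algebraMap_mem' c x _ := V.constFn_mem_range x c

theorem Var.mem_ringOf {V : Var K} {U : V.X.Opens} {a : V.fn} :
    a ∈ V.ringOf U ↔ ∀ x ∈ U, a ∈ regAt x := Iff.rfl

/-- The generic point. -/
def Var.gen (V : Var K) : Spec (CommRingCat.of V.fn) ⟶ V.X :=
  V.X.fromSpecStalk (genericPoint V.X)

/-- The ring of a smaller open set is larger. -/
theorem Var.ringOf_anti (V : Var K) {U W : V.X.Opens} (h : W ≤ U) : V.ringOf U ≤ V.ringOf W :=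
  fun _ ha x hx => ha x (h hx)

theorem Var.germ_mem_ringOf (V : Var K) (U : V.X.Opens) [Nonempty U] (r : Γ(V.X, U)) :
    V.X.germToFunctionField U r ∈ V.ringOf U :=
  fun _ hx => germToFunctionField_mem_regAt hx r

/-- The sections on an open set are the functions regular on it. -/
def Var.secEquiv (V : Var K) (U : V.X.Opens) [Nonempty U] : Γ(V.X, U) ≃+* V.ringOf U :=
  RingEquiv.ofBijective
    ((V.X.germToFunctionField U).hom.codRestrict (V.ringOf U) fun r => V.germ_mem_ringOf U r)
    ⟨fun _ _ h => V.X.germToFunctionField_injective U (congrArg Subtype.val h),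
      fun a => by
        obtain ⟨r, hr⟩ := exists_section (W := U) a.2
        exact ⟨r, Subtype.ext hr⟩⟩

theorem Var.secEquiv_constHom (V : Var K) (U : V.X.Opens) [h : Nonempty U] :
    (V.secEquiv U).toRingHom.comp (V.constHom U) = algebraMap K (V.ringOf U) := by
  refine RingHom.ext fun c => Subtype.ext ?_
  show V.X.germToFunctionField U (V.constHom U c) =
    V.X.presheaf.germ ⊤ (genericPoint V.X) trivial (V.constHom ⊤ c)
  rw [← V.X.presheaf.germ_res (homOfLE (le_top : U ≤ ⊤)) (genericPoint V.X)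
      (((genericPoint_spec V.X).mem_open_set_iff U.isOpen).mpr (by simpa using h)),
    ConcreteCategory.comp_apply]
  refine congrArg _ ?_
  simp only [Var.constHom, ← ConcreteCategory.comp_apply, Category.assoc]
  rw [Scheme.Hom.appLE_map]

/-- A nonempty affine open is the spectrum of its ring. -/
theorem Var.exists_chart (V : Var K) {U : V.X.Opens} (hU : IsAffineOpen U)
    (hne : (U : Set V.X).Nonempty) :
    ∃ e : Spec (CommRingCat.of (V.ringOf U)) ⟶ V.X, IsOpenImmersion e ∧
      Set.range e = (U : Set V.X) ∧ e ≫ V.str = spStr K (V.ringOf U) ∧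
      spMap (V.ringOf U).val ≫ e = V.gen := by
  haveI : Nonempty U := ⟨⟨_, hne.some_mem⟩⟩
  haveI : IsIso (CommRingCat.ofHom (V.secEquiv U).toRingHom) :=
    (V.secEquiv U).toCommRingCatIso.isIso_hom
  refine ⟨Spec.map (CommRingCat.ofHom (V.secEquiv U).toRingHom) ≫ hU.fromSpec, inferInstance,
    ?_, ?_, ?_⟩
  · rw [← hU.range_fromSpec]
    ext x
    refine ⟨?_, ?_⟩
    · rintro ⟨y, rfl⟩
      exact ⟨_, (Scheme.Hom.comp_apply _ _ y).symm⟩
    · rintro ⟨y, rfl⟩
      obtain ⟨z, rfl⟩ :=
        (Spec.map (CommRingCat.ofHom (V.secEquiv U).toRingHom)).surjective y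
      exact ⟨z, Scheme.Hom.comp_apply _ _ z⟩
  · have h := (isAffineOpen_top (Spec (CommRingCat.of K))).SpecMap_appLE_fromSpec V.str hU le_top
    rw [IsAffineOpen.fromSpec_top, Scheme.isoSpec_Spec_inv] at h
    rw [Category.assoc, ← h, ← Spec.map_comp, ← Spec.map_comp]
    refine congrArg Spec.map (CommRingCat.hom_ext ?_)
    exact V.secEquiv_constHom U
  · rw [← Category.assoc, ← Spec.map_comp]
    refine Eq.trans ?_ (hU.fromSpecStalk_eq_fromSpecStalk
      (((genericPoint_spec V.X).mem_open_set_iff U.isOpen).mpr (by simpa using ‹Nonempty U›)))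
    rfl

/-- The chart of a nonempty affine open. -/
def Var.chart (V : Var K) {U : V.X.Opens} (hU : IsAffineOpen U)
    (hne : (U : Set V.X).Nonempty) : Spec (CommRingCat.of (V.ringOf U)) ⟶ V.X :=
  (V.exists_chart hU hne).choose

instance (V : Var K) {U : V.X.Opens} (hU : IsAffineOpen U) (hne : (U : Set V.X).Nonempty) :
    IsOpenImmersion (V.chart hU hne) :=
  (V.exists_chart hU hne).choose_spec.1

theorem Var.range_chart (V : Var K) {U : V.X.Opens} (hU : IsAffineOpen U)
    (hne : (U : Set V.X).Nonempty) : Set.range (V.chart hU hne) = (U : Set V.X) :=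
  (V.exists_chart hU hne).choose_spec.2.1

theorem Var.chart_over (V : Var K) {U : V.X.Opens} (hU : IsAffineOpen U)
    (hne : (U : Set V.X).Nonempty) : V.chart hU hne ≫ V.str = spStr K (V.ringOf U) :=
  (V.exists_chart hU hne).choose_spec.2.2.1

theorem Var.spMap_val_chart (V : Var K) {U : V.X.Opens} (hU : IsAffineOpen U)
    (hne : (U : Set V.X).Nonempty) : spMap (V.ringOf U).val ≫ V.chart hU hne = V.gen :=
  (V.exists_chart hU hne).choose_spec.2.2.2

theorem Var.gen_over (V : Var K) : V.gen ≫ V.str = spStr K V.fn := by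
  obtain ⟨_, ⟨U, hU, rfl⟩, hx, -⟩ := V.X.isBasis_affineOpens.exists_subset_of_mem_open
    (Set.mem_univ (genericPoint V.X)) isOpen_univ
  rw [← V.spMap_val_chart hU ⟨_, hx⟩, Category.assoc, V.chart_over, spMap_comp_spStr]

/-- A smaller chart factors through a larger one. -/
theorem Var.spMap_inclusion_chart (V : Var K) {U W : V.X.Opens} (hU : IsAffineOpen U)
    (hne : (U : Set V.X).Nonempty) (hW : IsAffineOpen W) (hne' : (W : Set V.X).Nonempty)
    (hWU : W ≤ U) (h : V.ringOf U ≤ V.ringOf W) :
    spMap (Subalgebra.inclusion h) ≫ V.chart hU hne = V.chart hW hne' := by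
  have hr : Set.range (V.chart hW hne') ⊆ Set.range (V.chart hU hne) := by
    rw [V.range_chart, V.range_chart]
    exact hWU
  have hf := IsOpenImmersion.lift_fac (V.chart hU hne) (V.chart hW hne') hr
  obtain ⟨φ, hφ⟩ := exists_eq_spMap (K := K)
    (IsOpenImmersion.lift (V.chart hU hne) (V.chart hW hne') hr)
    (by rw [← V.chart_over hU hne, ← Category.assoc, hf, V.chart_over])
  have h1 : spMap ((V.ringOf W).val.comp φ) = spMap (V.ringOf U).val := by
    rw [← cancel_mono (V.chart hU hne), V.spMap_val_chart, ← spMap_comp, hφ, Category.assoc, hf,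
      V.spMap_val_chart]
  have h2 : φ = Subalgebra.inclusion h :=
    AlgHom.ext fun x => Subtype.ext (AlgHom.congr_fun (spMap_injective h1) x :)
  rw [← h2, hφ, hf]

theorem Var.finiteType_ringOf (V : Var K) {U : V.X.Opens} (hU : IsAffineOpen U)
    (hne : (U : Set V.X).Nonempty) : Algebra.FiniteType K (V.ringOf U) := by
  haveI : Nonempty U := ⟨⟨_, hne.some_mem⟩⟩
  rw [← RingHom.finiteType_algebraMap, ← V.secEquiv_constHom U]
  refine RingHom.FiniteType.comp (RingHom.FiniteType.of_surjective _ (V.secEquiv U).surjective) ?_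
  exact RingHom.FiniteType.comp (V.str.finiteType_appLE (isAffineOpen_top _) hU le_top)
    (RingHom.FiniteType.of_surjective _
      (Scheme.ΓSpecIso (CommRingCat.of K)).symm.commRingCatIsoToRingEquiv.surjective)

/-- A point in a chart is read as a character of the ring. -/
theorem Var.exists_character (V : Var K) {U : V.X.Opens} (hU : IsAffineOpen U)
    (hne : (U : Set V.X).Nonempty) (p : Spec (CommRingCat.of K) ⟶ V.X) (hp : p ≫ V.str = 𝟙 _)
    (hmem : Set.range p ⊆ (U : Set V.X)) :
    ∃ ev : V.ringOf U →ₐ[K] K, spMap ev ≫ V.chart hU hne = p := by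
  have hr : Set.range p ⊆ Set.range (V.chart hU hne) := by rwa [V.range_chart]
  have hf := IsOpenImmersion.lift_fac (V.chart hU hne) p hr
  obtain ⟨φ, hφ⟩ := exists_eq_spMap (K := K) (IsOpenImmersion.lift (V.chart hU hne) p hr)
    (by
      rw [← V.chart_over hU hne, ← Category.assoc, hf, hp]
      exact (Spec.map_id _).symm)
  exact ⟨φ, by rw [hφ, hf]⟩

/-- A chart of a fibre product. -/
def pchart {X Y : Scheme.{u}} (a : X ⟶ Spec (CommRingCat.of K)) (b : Y ⟶ Spec (CommRingCat.of K))
    {B C : Type u} [CommRing B] [CommRing C] [Algebra K B] [Algebra K C]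
    (g : Spec (CommRingCat.of B) ⟶ X) (hg : g ≫ a = spStr K B)
    (h : Spec (CommRingCat.of C) ⟶ Y) (hh : h ≫ b = spStr K C) :
    Spec (CommRingCat.of (B ⊗[K] C)) ⟶ pullback a b :=
  pullback.lift (spMap (K := K) (B := B) (C := B ⊗[K] C) Algebra.TensorProduct.includeLeft ≫ g)
    (spMap (K := K) (B := C) (C := B ⊗[K] C) Algebra.TensorProduct.includeRight ≫ h)
    (by rw [Category.assoc, Category.assoc, hg, hh, spMap_comp_spStr, spMap_comp_spStr])

section PChart

variable {X Y : Scheme.{u}} {a : X ⟶ Spec (CommRingCat.of K)} {b : Y ⟶ Spec (CommRingCat.of K)}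
  {B C B' C' : Type u} [CommRing B] [CommRing C] [Algebra K B] [Algebra K C]
  [CommRing B'] [CommRing C'] [Algebra K B'] [Algebra K C']
  {g : Spec (CommRingCat.of B) ⟶ X} {hg : g ≫ a = spStr K B}
  {h : Spec (CommRingCat.of C) ⟶ Y} {hh : h ≫ b = spStr K C}

theorem pchart_fst : pchart a b g hg h hh ≫ pullback.fst a b =
    spMap (K := K) (B := B) (C := B ⊗[K] C) Algebra.TensorProduct.includeLeft ≫ g := pullback.lift_fst _ _ _

theorem pchart_snd : pchart a b g hg h hh ≫ pullback.snd a b =
    spMap (K := K) (B := C) (C := B ⊗[K] C) Algebra.TensorProduct.includeRight ≫ h := pullback.lift_snd _ _ _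

theorem pchart_over : pchart a b g hg h hh ≫ pullback.fst a b ≫ a = spStr K (B ⊗[K] C) := by
  rw [← Category.assoc, pchart_fst, Category.assoc, hg, spMap_comp_spStr]

theorem spMap_map_pchart (φ : B →ₐ[K] B') (ψ : C →ₐ[K] C') {g' : Spec (CommRingCat.of B') ⟶ X}
    (hg' : g' ≫ a = spStr K B') {h' : Spec (CommRingCat.of C') ⟶ Y} (hh' : h' ≫ b = spStr K C')
    (eg : spMap φ ≫ g = g') (eh : spMap ψ ≫ h = h') :
    spMap (Algebra.TensorProduct.map φ ψ) ≫ pchart a b g hg h hh = pchart a b g' hg' h' hh' := by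
  apply pullback.hom_ext
  · rw [Category.assoc, pchart_fst, pchart_fst, ← eg, ← Category.assoc, ← Category.assoc,
      spMap_comp, spMap_comp, Algebra.TensorProduct.map_comp_includeLeft]
  · rw [Category.assoc, pchart_snd, pchart_snd, ← eh, ← Category.assoc, ← Category.assoc,
      spMap_comp, spMap_comp, Algebra.TensorProduct.map_comp_includeRight]

/-- A chart of a fibre product as a product of charts. -/
theorem pchart_eq : pchart a b g hg h hh = (pullbackSpecIso K B C).inv ≫
    pullback.map (spStr K B) (spStr K C) a b g h (𝟙 _) (by rw [Category.comp_id, hg])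
      (by rw [Category.comp_id, hh]) := by
  apply pullback.hom_ext
  · rw [pchart_fst, Category.assoc, pullback.lift_fst, pullbackSpecIso_inv_fst_assoc]
    rfl
  · rw [pchart_snd, Category.assoc, pullback.lift_snd, pullbackSpecIso_inv_snd_assoc]
    rfl

instance [IsOpenImmersion g] [IsOpenImmersion h] : IsOpenImmersion (pchart a b g hg h hh) := by
  rw [pchart_eq]
  infer_instance

theorem range_pchart [IsOpenImmersion g] [IsOpenImmersion h] :
    Set.range (pchart a b g hg h hh) =
      pullback.fst a b ⁻¹' Set.range g ∩ pullback.snd a b ⁻¹' Set.range h := by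
  rw [pchart_eq]
  refine Eq.trans ?_ (Scheme.Pullback.range_map (spStr K B) (spStr K C) a b g h (𝟙 _)
    (by rw [Category.comp_id, hg]) (by rw [Category.comp_id, hh]))
  ext x
  refine ⟨?_, ?_⟩
  · rintro ⟨y, rfl⟩
    exact ⟨_, (Scheme.Hom.comp_apply _ _ y).symm⟩
  · rintro ⟨y, rfl⟩
    obtain ⟨z, rfl⟩ := (pullbackSpecIso K B C).inv.surjective y
    exact ⟨z, Scheme.Hom.comp_apply _ _ z⟩

end PChart

theorem Var.isAffineOpen_inf (V : Var K) {U W : V.X.Opens} (hU : IsAffineOpen U)
    (hW : IsAffineOpen W) : IsAffineOpen (U ⊓ W) := by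
  haveI : IsSeparated (terminal.from V.X) := by
    rw [← terminal.comp_from V.str]
    infer_instance
  exact hU.inf hW

/-- The ring of an intersection of affine opens. -/
theorem Var.ringOf_inf (V : Var K) {U W : V.X.Opens} (hU : IsAffineOpen U)
    (hne : (U : Set V.X).Nonempty) (hW : IsAffineOpen W) (hne' : (W : Set V.X).Nonempty) :
    V.ringOf (U ⊓ W) = V.ringOf U ⊔ V.ringOf W := by
  refine le_antisymm ?_
    (sup_le (V.ringOf_anti inf_le_left) (V.ringOf_anti inf_le_right))
  have hne'' : ((U ⊓ W : V.X.Opens) : Set V.X).Nonempty :=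
    ⟨genericPoint V.X, Growth.genericPoint_mem hne.some_mem, Growth.genericPoint_mem hne'.some_mem⟩
  have hUW := V.isAffineOpen_inf hU hW
  let m : V.ringOf U ⊗[K] V.ringOf W →ₐ[K] V.ringOf (U ⊓ W) :=
    Algebra.TensorProduct.productMap (Subalgebra.inclusion (V.ringOf_anti inf_le_left))
      (Subalgebra.inclusion (V.ringOf_anti inf_le_right))
  let q := pchart V.str V.str (V.chart hU hne) (V.chart_over hU hne) (V.chart hW hne')
    (V.chart_over hW hne')
  haveI : IsClosedImmersion (spMap m) := by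
    have hcomm : V.chart hUW hne'' ≫ pullback.diagonal V.str = spMap m ≫ q := by
      apply pullback.hom_ext
      · rw [Category.assoc, Category.assoc, pullback.diagonal_fst, Category.comp_id, pchart_fst,
          ← Category.assoc, spMap_comp, Algebra.TensorProduct.productMap_left,
          V.spMap_inclusion_chart hU hne hUW hne'' inf_le_left]
      · rw [Category.assoc, Category.assoc, pullback.diagonal_snd, Category.comp_id, pchart_snd,
          ← Category.assoc, spMap_comp, Algebra.TensorProduct.productMap_right,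
          V.spMap_inclusion_chart hW hne' hUW hne'' inf_le_right]
    have hrange : pullback.diagonal V.str ⁻¹ᵁ q.opensRange = (V.chart hUW hne'').opensRange := by
      apply Opens.ext
      show pullback.diagonal V.str ⁻¹' Set.range q = Set.range (V.chart hUW hne'')
      rw [range_pchart, V.range_chart, V.range_chart, V.range_chart, Opens.coe_inf]
      ext x
      simp only [Set.mem_preimage, Set.mem_inter_iff, ← Scheme.Hom.comp_apply,
        pullback.diagonal_fst, pullback.diagonal_snd]
      rfl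
    exact MorphismProperty.of_isPullback
      (IsOpenImmersion.isPullback (spMap m) (V.chart hUW hne'') q (pullback.diagonal V.str) hcomm
        hrange).flip inferInstance
  intro x hx
  obtain ⟨-, hsurj⟩ := IsClosedImmersion.isAffine_surjective_of_isAffine (spMap m)
  obtain ⟨z, hz⟩ : ∃ z, m z = ⟨x, hx⟩ := by
    obtain ⟨w, hw⟩ := hsurj ((Scheme.ΓSpecIso (CommRingCat.of (V.ringOf (U ⊓ W)))).inv ⟨x, hx⟩)
    refine ⟨(Scheme.ΓSpecIso (CommRingCat.of (V.ringOf U ⊗[K] V.ringOf W))).hom w, ?_⟩
    have h := ConcreteCategory.congr_hom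
      (Scheme.ΓSpecIso_naturality (CommRingCat.ofHom m.toRingHom)) w
    rw [ConcreteCategory.comp_apply, ConcreteCategory.comp_apply, hw] at h
    refine h.symm.trans ?_
    rw [← ConcreteCategory.comp_apply, Iso.inv_hom_id]
    rfl
  have key : ∀ z, ((m z : V.ringOf (U ⊓ W)) : V.fn) ∈ V.ringOf U ⊔ V.ringOf W := by
    intro z
    induction z using TensorProduct.induction_on with
    | zero => rw [map_zero]; exact zero_mem _
    | tmul p r =>
      exact mul_mem ((le_sup_left : V.ringOf U ≤ V.ringOf U ⊔ V.ringOf W) p.2)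
        ((le_sup_right : V.ringOf W ≤ V.ringOf U ⊔ V.ringOf W) r.2)
    | add p r hp hr => rw [map_add]; exact add_mem hp hr
  have := key z
  rwa [hz] at this

/-- Sections read along a map from an affine scheme. -/
def rd {M : Scheme.{u}} {B : Type u} [CommRing B] (e : Spec (CommRingCat.of B) ⟶ M) {O : M.Opens}
    (h : ⊤ ≤ e ⁻¹ᵁ O) : Γ(M, O) →+* B :=
  (e.appLE O ⊤ h ≫ (Scheme.ΓSpecIso (CommRingCat.of B)).hom).hom

section Rd

variable {M M' : Scheme.{u}} {B B' : Type u} [CommRing B] [CommRing B']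

theorem rd_res (e : Spec (CommRingCat.of B) ⟶ M) {O O' : M.Opens} (hle : O' ≤ O)
    (h : ⊤ ≤ e ⁻¹ᵁ O') (h₀ : ⊤ ≤ e ⁻¹ᵁ O) (c : Γ(M, O)) :
    rd e h ((M.presheaf.map (homOfLE hle).op).hom c) = rd e h₀ c := by
  simp only [rd, ← ConcreteCategory.comp_apply]
  rw [← Category.assoc, Scheme.Hom.map_appLE]

theorem rd_specMap (e : Spec (CommRingCat.of B) ⟶ M) (φ : B →+* B') {O : M.Opens}
    (h : ⊤ ≤ e ⁻¹ᵁ O) (h' : ⊤ ≤ (Spec.map (CommRingCat.ofHom φ) ≫ e) ⁻¹ᵁ O) (c : Γ(M, O)) :
    rd (Spec.map (CommRingCat.ofHom φ) ≫ e) h' c = φ (rd e h c) :=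
  (ConcreteCategory.congr_hom (Growth.appLE_comp_SpecMap e (CommRingCat.ofHom φ) h h') c).symm

theorem rd_app (e : Spec (CommRingCat.of B) ⟶ M') (ψ : M' ⟶ M) {O : M.Opens}
    (h : ⊤ ≤ e ⁻¹ᵁ (ψ ⁻¹ᵁ O)) (h' : ⊤ ≤ (e ≫ ψ) ⁻¹ᵁ O) (c : Γ(M, O)) :
    rd e h ((ψ.app O).hom c) = rd (e ≫ ψ) h' c := by
  simp only [rd, ← ConcreteCategory.comp_apply]
  rw [← Category.assoc, ← Scheme.Hom.comp_appLE]

theorem rd_bijective (e : Spec (CommRingCat.of B) ⟶ M) [IsOpenImmersion e] {O : M.Opens}
    (hO : Set.range e = (O : Set M)) (h : ⊤ ≤ e ⁻¹ᵁ O) : Function.Bijective (rd e h) := by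
  haveI := Scheme.Hom.isIso_app e O fun x hx => hO.ge hx
  have hiso : IsIso (e.appLE O ⊤ h) := by
    rw [Scheme.Hom.appLE]
    haveI : IsIso (homOfLE h) := ⟨homOfLE le_top, Subsingleton.elim _ _, Subsingleton.elim _ _⟩
    infer_instance
  exact ConcreteCategory.bijective_of_isIso (e.appLE O ⊤ h ≫
    (Scheme.ΓSpecIso (CommRingCat.of B)).hom)

end Rd

end FLTAgent.AbScheme
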