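import Fermat.Agent.AbScheme.Bridge.Face
import Fermat.Agent.AbScheme.Cube.Main

/-!
The theorem of the cube for line bundles on a product of three proper varieties.
-/

set_option autoImplicit false
set_option linter.unusedSectionVars false
set_option linter.style.haveILetI false

noncomputable section

universe u

namespace FLTAgent.AbScheme

open CategoryTheory CategoryTheory.Limits AlgebraicGeometry TopologicalSpace Opposite
open scoped TensorProduct

variable {K : Type u} [Field K]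

theorem spStr_self : spStr K K = 𝟙 (Spec (CommRingCat.of K)) := Spec.map_id _

variable (V W Z : Var K)

/-- The product of three varieties. -/
abbrev P3 : Scheme.{u} := pullback (xyStr V W) Z.str

/-- The projection to the third factor. -/
abbrev pr3 : P3 V W Z ⟶ Z.X := pullback.snd (xyStr V W) Z.str

variable {V W Z}

theorem range_bcTo {S : Type u} [CommRing S] [Algebra K S] (h : Spec (CommRingCat.of S) ⟶ Z.X)
    (hh : h ≫ Z.str = spStr K S) [IsOpenImmersion h] :
    Set.range (bcTo V W Z.str h hh) = pr3 V W Z ⁻¹' Set.range h := by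
  rw [bcTo, Scheme.Pullback.range_map]
  ext x
  simp

instance {S : Type u} [CommRing S] [Algebra K S] (h : Spec (CommRingCat.of S) ⟶ Z.X)
    (hh : h ≫ Z.str = spStr K S) [IsOpenImmersion h] : IsOpenImmersion (bcTo V W Z.str h hh) := by
  unfold bcTo
  infer_instance

theorem bc_bcTo {R S : Type u} [CommRing R] [Algebra K R] [CommRing S] [Algebra K S]
    (φ : R →ₐ[K] S) (h : Spec (CommRingCat.of R) ⟶ Z.X) (hh : h ≫ Z.str = spStr K R)
    (h' : Spec (CommRingCat.of S) ⟶ Z.X) (hh' : h' ≫ Z.str = spStr K S) (e : spMap φ ≫ h = h') :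
    bc V W φ ≫ bcTo V W Z.str h hh = bcTo V W Z.str h' hh' := by
  refine pullback.hom_ext ?_ ?_
  · rw [Category.assoc, bcTo_fst, bcTo_fst, bcTo_fst]
  · rw [Category.assoc, bcTo_snd, ← Category.assoc, bcTo_snd, bcTo_snd, Category.assoc, e]

/-- A bundle is trivial over an open set of the third factor. -/
def GoodOver (Q : Pic (P3 V W Z)) (O : Z.X.Opens) : Prop :=
  Pic.map (pr3 V W Z ⁻¹ᵁ O).ι Q = 1

theorem goodOver_of_chart {Q : Pic (P3 V W Z)} {S : Type u} [CommRing S] [Algebra K S]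
    (h : Spec (CommRingCat.of S) ⟶ Z.X) (hh : h ≫ Z.str = spStr K S) [IsOpenImmersion h]
    {O : Z.X.Opens} (hO : (O : Set Z.X) ⊆ Set.range h)
    (hQ : Pic.map (bcTo V W Z.str h hh) Q = 1) : GoodOver Q O := by
  have hr : Set.range (pr3 V W Z ⁻¹ᵁ O).ι ⊆ Set.range (bcTo V W Z.str h hh) := by
    rw [range_bcTo, Scheme.Opens.range_ι]
    exact fun x hx => hO hx
  rw [GoodOver, ← IsOpenImmersion.lift_fac (bcTo V W Z.str h hh) _ hr, Pic.map_comp, hQ, map_one]

theorem GoodOver.map_bcTo {Q : Pic (P3 V W Z)} {O : Z.X.Opens} (hG : GoodOver Q O) {S : Type u}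
    [CommRing S] [Algebra K S] (h : Spec (CommRingCat.of S) ⟶ Z.X) (hh : h ≫ Z.str = spStr K S)
    (hO : Set.range h ⊆ (O : Set Z.X)) : Pic.map (bcTo V W Z.str h hh) Q = 1 := by
  have hr : Set.range (bcTo V W Z.str h hh) ⊆ Set.range (pr3 V W Z ⁻¹ᵁ O).ι := by
    rintro _ ⟨x, rfl⟩
    rw [Scheme.Opens.range_ι]
    show pr3 V W Z (bcTo V W Z.str h hh x) ∈ O
    rw [← Scheme.Hom.comp_apply, bcTo_snd, Scheme.Hom.comp_apply]
    exact hO (Set.mem_range_self _)
  rw [← IsOpenImmersion.lift_fac (pr3 V W Z ⁻¹ᵁ O).ι _ hr, Pic.map_comp, hG, map_one]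

variable [IsAlgClosed K] {px : Spec (CommRingCat.of K) ⟶ V.X} {py : Spec (CommRingCat.of K) ⟶ W.X}
  (hx : px ≫ V.str = 𝟙 _) (hy : py ≫ W.str = 𝟙 _)

/-- The face over the base point of the first factor. -/
def faceX : pullback W.str Z.str ⟶ P3 V W Z :=
  pullback.map _ _ _ _ (secX hx) (𝟙 _) (𝟙 _) (by rw [secX_over]; simp) (by simp)

/-- The face over the base point of the second factor. -/
def faceY : pullback V.str Z.str ⟶ P3 V W Z :=
  pullback.map _ _ _ _ (secY hy) (𝟙 _) (𝟙 _) (by rw [secY_over]; simp) (by simp)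

variable {Q : Pic (P3 V W Z)} (hX : Pic.map (faceX hx) Q = 1) (hY : Pic.map (faceY hy) Q = 1)

theorem jY_bcTo {R : Type u} [CommRing R] [Algebra K R] (h : Spec (CommRingCat.of R) ⟶ Z.X)
    (hh : h ≫ Z.str = spStr K R) :
    jY (V := V) R hy ≫ bcTo V W Z.str h hh =
      pullback.map V.str (spStr K R) V.str Z.str (𝟙 _) h (𝟙 _) (by simp) (by simp [hh]) ≫
        faceY hy := by
  refine pullback.hom_ext ?_ ?_ <;>
    simp only [jY, faceY, bcTo, pullback.map, Category.assoc, pullback.lift_fst,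
      pullback.lift_fst_assoc, pullback.lift_snd, pullback.lift_snd_assoc, Category.comp_id]

theorem jX_bcTo {R : Type u} [CommRing R] [Algebra K R] (h : Spec (CommRingCat.of R) ⟶ Z.X)
    (hh : h ≫ Z.str = spStr K R) :
    jX (W := W) R hx ≫ bcTo V W Z.str h hh =
      pullback.map W.str (spStr K R) W.str Z.str (𝟙 _) h (𝟙 _) (by simp) (by simp [hh]) ≫
        faceX hx := by
  refine pullback.hom_ext ?_ ?_ <;>
    simp only [jX, faceX, bcTo, pullback.map, Category.assoc, pullback.lift_fst,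
      pullback.lift_fst_assoc, pullback.lift_snd, pullback.lift_snd_assoc, Category.comp_id]

include hX hY in
/-- Trivialisations spread from one point to an affine open. -/
theorem exists_goodOver_of_fiber {W₀ : Z.X.Opens} (hW : IsAffineOpen W₀)
    (hne : (W₀ : Set Z.X).Nonempty) (q : Spec (CommRingCat.of K) ⟶ Z.X)
    (hq : q ≫ Z.str = spStr K K) (hmem : Set.range q ⊆ (W₀ : Set Z.X))
    (hfib : Pic.map (bcTo V W Z.str q hq) Q = 1) (x : Z.X) (hxW : x ∈ W₀) :
    ∃ O : Z.X.Opens, x ∈ O ∧ O ≤ W₀ ∧ IsAffineOpen O ∧ GoodOver Q O := by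
  obtain ⟨L, rfl⟩ := Pic.mk_surjective Q
  obtain ⟨MX⟩ := V.exists_model px hx
  obtain ⟨MY⟩ := W.exists_model py hy
  haveI := V.isDomain_tensor W
  haveI := Z.finiteType_ringOf hW hne
  set h := Z.chart hW hne with hh0
  have hh : h ≫ Z.str = spStr K (Z.ringOf W₀) := Z.chart_over hW hne
  set LR := L.pull (bcTo V W Z.str h hh) with hLR
  obtain ⟨F⟩ := LR.exists_framing (bOpen MX MY (Z.ringOf W₀)) (isAffineOpen_bOpen MX MY _)
  have hFY : Cube.FaceY (toBundle MX MY F) := faceY_of_isTrivial MX MY F hy (by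
    rw [← Pic.mk_eq_one_iff, hLR, ← Pic.map_mk, ← Pic.map_mk, ← Pic.map_comp, jY_bcTo hy h hh,
      Pic.map_comp, hY, map_one])
  have hFX : Cube.FaceX (toBundle MX MY F) := faceX_of_isTrivial MX MY F hx (by
    rw [← Pic.mk_eq_one_iff, hLR, ← Pic.map_mk, ← Pic.map_mk, ← Pic.map_comp, jX_bcTo hx h hh,
      Pic.map_comp, hX, map_one])
  obtain ⟨φ, hφ⟩ := Z.exists_character hW hne q (hq.trans spStr_self) hmem
  have h₀ : Nonempty (Cube.Triv (toBundle MX MY F) φ) := nonempty_triv MX MY K F φ (by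
    rw [← Pic.mk_eq_one_iff, hLR, ← Pic.map_mk, ← Pic.map_mk, ← Pic.map_comp,
      bc_bcTo φ h hh q hq hφ, hfib])
  obtain ⟨p, hp⟩ : x ∈ Set.range h := by rw [hh0, Z.range_chart]; exact hxW
  obtain ⟨m, hm, hpm⟩ := Ideal.exists_le_maximal p.asIdeal p.isPrime.ne_top
  obtain ⟨z', -⟩ := Cube.exists_point (K := K) (R := Z.ringOf W₀ ⧸ m) one_ne_zero
  set z := z'.comp (Ideal.Quotient.mkₐ K m) with hz
  obtain ⟨g, hzg, htriv⟩ := Cube.exists_triv_near (toBundle MX MY F) hFX hFY h₀ z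
  have hgp : g ∉ p.asIdeal := fun hgp => hzg (by
    rw [hz, AlgHom.comp_apply, Ideal.Quotient.mkₐ_eq_mk,
      Ideal.Quotient.eq_zero_iff_mem.2 (hpm hgp), map_zero])
  set loc := IsScalarTower.toAlgHom K (Z.ringOf W₀) (Localization.Away g) with hloc
  have hh' : (spMap loc ≫ h) ≫ Z.str = spStr K (Localization.Away g) := by
    rw [Category.assoc, hh, spMap_comp_spStr]
  haveI : IsOpenImmersion (spMap loc) := IsOpenImmersion.of_isLocalization g
  refine ⟨(spMap loc ≫ h).opensRange, ?_, fun y hy' => ?_, isAffineOpen_opensRange _, ?_⟩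
  · obtain ⟨p', hp'⟩ : p ∈ Set.range (PrimeSpectrum.comap
        (algebraMap (Z.ringOf W₀) (Localization.Away g))) := by
      rw [PrimeSpectrum.localization_away_comap_range (Localization.Away g) g]
      exact hgp
    refine ⟨p', ?_⟩
    rw [Scheme.Hom.comp_apply, ← hp]
    exact congrArg h hp'
  · obtain ⟨p', rfl⟩ := hy'
    have h2 : h (spMap loc p') ∈ Set.range h := Set.mem_range_self _
    rw [hh0, Z.range_chart] at h2
    exact h2
  · refine goodOver_of_chart (spMap loc ≫ h) hh' (subset_rfl) ?_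
    rw [← bc_bcTo loc h hh (spMap loc ≫ h) hh' rfl, Pic.map_comp, Pic.map_mk, Pic.map_mk,
      Pic.mk_eq_one_iff]
    exact isTrivial_of_triv MX MY _ F loc htriv

/-- A point of a nonempty open set. -/
theorem Var.exists_point_mem (Z : Var K) {O : Z.X.Opens} (hO : (O : Set Z.X).Nonempty) :
    ∃ q : Spec (CommRingCat.of K) ⟶ Z.X, q ≫ Z.str = spStr K K ∧ Set.range q ⊆ (O : Set Z.X) := by
  obtain ⟨_, ⟨U, hU, rfl⟩, hxU, hUO⟩ :=
    Z.X.isBasis_affineOpens.exists_subset_of_mem_open hO.some_mem O.isOpen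
  haveI := Z.finiteType_ringOf hU ⟨_, hxU⟩
  obtain ⟨z, -⟩ := Cube.exists_point (K := K) (R := Z.ringOf U) one_ne_zero
  refine ⟨spMap z ≫ Z.chart hU ⟨_, hxU⟩, by rw [Category.assoc, Z.chart_over, spMap_comp_spStr],
    ?_⟩
  rintro _ ⟨t, rfl⟩
  refine hUO ((Z.range_chart hU ⟨_, hxU⟩).le ?_)
  rw [Scheme.Hom.comp_apply]
  exact Set.mem_range_self _

/-- The section at the base points. -/
def sec3 : Z.X ⟶ P3 V W Z :=
  pullback.lift (Z.str ≫ px ≫ secY hy) (𝟙 _) (by
    rw [Category.assoc, Category.assoc, secY_over, hx, Category.comp_id, Category.id_comp])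

theorem sec3_pr3 : sec3 hx hy ≫ pr3 V W Z = 𝟙 Z.X := pullback.lift_snd _ _ _

variable {R : Type u} [CommRing R] [Algebra K R]

omit [IsAlgClosed K] in
/-- The value along a section of a function read in a chart. -/
theorem rd_eval_eq_one {M P S : Scheme.{u}} {B C : Type u} [CommRing B] [CommRing C] [Algebra K B]
    [Algebra K C] (Ψ : B →ₐ[K] C) (g : Spec (CommRingCat.of B) ⟶ M) (π : M ⟶ P)
    (h : Spec (CommRingCat.of C) ⟶ S) (s : S ⟶ P) (e : (spMap Ψ ≫ g) ≫ π = h ≫ s) {O : P.Opens}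
    (hg : ⊤ ≤ g ⁻¹ᵁ (π ⁻¹ᵁ O)) (c : Γ(P, O)) (hc : (s.app O).hom c = 1) :
    Ψ (rd g hg ((π.app O).hom c)) = 1 := by
  have h1 : ⊤ ≤ (spMap Ψ ≫ g) ⁻¹ᵁ (π ⁻¹ᵁ O) := fun y _ => hg (Set.mem_univ _)
  have h3 : ∀ (e' : Spec (CommRingCat.of C) ⟶ P) (he : ⊤ ≤ e' ⁻¹ᵁ O), e' = h ≫ s →
      rd e' he c = 1 := by
    rintro e' he rfl
    rw [← rd_app h s he he, hc, map_one]
  refine (rd_specMap g Ψ.toRingHom hg h1 _).symm.trans ?_
  exact (rd_app _ π h1 (fun y hy => h1 hy) c).trans (h3 _ _ e)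

omit [IsAlgClosed K] in
/-- Evaluation at the base points of the first two factors is the section. -/
theorem exists_eval_bcTo (MX : V.Model px) (MY : W.Model py) :
    ∃ Ψ : (MX.cm.C MX.cm.base ⊗[K] MY.cm.C MY.cm.base) ⊗[K] R →ₐ[K] R,
      (∀ r : R, Ψ (1 ⊗ₜ[K] r) = r) ∧
      ∀ (h : Spec (CommRingCat.of R) ⟶ Z.X) (hh : h ≫ Z.str = spStr K R),
        (spMap Ψ ≫ (boxCh R (MX.ch MX.cm.base) (MY.ch MY.cm.base)).g) ≫ bcTo V W Z.str h hh =
          h ≫ sec3 hx hy := by
  set ω : MX.cm.C MX.cm.base ⊗[K] MY.cm.C MY.cm.base →ₐ[K] K :=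
    (Algebra.TensorProduct.lid K K).toAlgHom.comp (Algebra.TensorProduct.map MX.cm.ev MY.cm.ev)
    with hω
  refine ⟨(Algebra.TensorProduct.lid K R).toAlgHom.comp
      (Algebra.TensorProduct.map ω (AlgHom.id K R)), fun r => ?_, fun h hh => ?_⟩
  · simp [hω, Algebra.TensorProduct.one_def]
  set Ψ : (MX.cm.C MX.cm.base ⊗[K] MY.cm.C MY.cm.base) ⊗[K] R →ₐ[K] R :=
    (Algebra.TensorProduct.lid K R).toAlgHom.comp
      (Algebra.TensorProduct.map ω (AlgHom.id K R)) with hΨ
  set box := boxCh R (MX.ch MX.cm.base) (MY.ch MY.cm.base) with hbox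
  have e1 : box.g ≫ pullback.fst _ _ = spMap Algebra.TensorProduct.includeLeft ≫
      pchart V.str W.str (MX.ch MX.cm.base).g (MX.ch MX.cm.base).hover
        (MY.ch MY.cm.base).g (MY.ch MY.cm.base).hover :=
    pchart_fst (hg := ((MX.ch MX.cm.base).prod V.gen_over (MY.ch MY.cm.base) W.gen_over).hover)
      (hh := Category.id_comp _)
  have e2 : box.g ≫ pullback.snd _ _ = spMap Algebra.TensorProduct.includeRight ≫ 𝟙 _ :=
    pchart_snd (hg := ((MX.ch MX.cm.base).prod V.gen_over (MY.ch MY.cm.base) W.gen_over).hover)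
      (hh := Category.id_comp _)
  have e3 : spMap ω ≫ pchart V.str W.str (MX.ch MX.cm.base).g (MX.ch MX.cm.base).hover
      (MY.ch MY.cm.base).g (MY.ch MY.cm.base).hover = px ≫ secY hy := by
    refine pullback.hom_ext ?_ ?_
    · rw [Category.assoc, pchart_fst, ← Category.assoc, ← spMap_algHom_comp,
        show ω.comp Algebra.TensorProduct.includeLeft = MX.cm.ev from
          AlgHom.ext fun a => by simp [hω],
        MX.spMap_ev, Category.assoc, secY, pullback.lift_fst, Category.comp_id]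
    · rw [Category.assoc, pchart_snd, ← Category.assoc, ← spMap_algHom_comp,
        show ω.comp Algebra.TensorProduct.includeRight = MY.cm.ev from
          AlgHom.ext fun a => by simp [hω],
        MY.spMap_ev, Category.assoc, secY, pullback.lift_snd, ← Category.assoc, hx,
        Category.id_comp]
  refine pullback.hom_ext ?_ ?_
  · rw [Category.assoc, bcTo_fst, Category.assoc, e1, ← Category.assoc, ← spMap_algHom_comp,
      show Ψ.comp Algebra.TensorProduct.includeLeft = (Algebra.ofId K R).comp ω from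
        AlgHom.ext fun a => by simp [hΨ, Algebra.smul_def, Algebra.ofId_apply],
      spMap_algHom_comp, Category.assoc, e3, Category.assoc, sec3, pullback.lift_fst,
      ← Category.assoc h, hh]
    rfl
  · rw [Category.assoc, bcTo_snd, Category.assoc, ← Category.assoc box.g, e2, Category.comp_id,
      ← Category.assoc, ← spMap_algHom_comp,
      show Ψ.comp Algebra.TensorProduct.includeRight = AlgHom.id K R from
        AlgHom.ext fun a => by simp [hΨ, hω, Algebra.TensorProduct.one_def],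
      show spMap (AlgHom.id K R) = 𝟙 _ from Spec.map_id _, Category.id_comp, Category.assoc, sec3,
      pullback.lift_snd, Category.comp_id]

include hx hy in
/-- Functions over the chart of an open set are determined along the section. -/
theorem eq_one_of_sec_eq_one_aux (h : Spec (CommRingCat.of R) ⟶ Z.X) (hh : h ≫ Z.str = spStr K R)
    [IsOpenImmersion h] {O : Z.X.Opens} (hO : Set.range h = (O : Set Z.X))
    (c : Γ(P3 V W Z, pr3 V W Z ⁻¹ᵁ O))
    (hc : ((sec3 hx hy).app (pr3 V W Z ⁻¹ᵁ O)).hom c = 1) : c = 1 := by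
  obtain ⟨MX⟩ := V.exists_model px hx
  obtain ⟨MY⟩ := W.exists_model py hy
  obtain ⟨Ψ, hΨ, hsR⟩ := exists_eval_bcTo (R := R) (Z := Z) hx hy MX MY
  have hsR := hsR h hh
  have hT : (bcTo V W Z.str h hh) ⁻¹ᵁ (pr3 V W Z ⁻¹ᵁ O) = ⊤ := eq_top_iff.2 fun y _ => by
    have hm : (bcTo V W Z.str h hh) y ∈ Set.range (bcTo V W Z.str h hh) := Set.mem_range_self y
    rw [range_bcTo, hO] at hm
    exact hm
  obtain ⟨c', hc'⟩ : ∃ c', ((bcTo V W Z.str h hh).app _).hom c = c' := ⟨_, rfl⟩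
  have hle : ∀ a, bOpen MX MY R a ≤ (bcTo V W Z.str h hh) ⁻¹ᵁ (pr3 V W Z ⁻¹ᵁ O) := fun a => by rw [hT]; exact le_top
  have hηT : ⊤ ≤ eta V W R ⁻¹ᵁ ((bcTo V W Z.str h hh) ⁻¹ᵁ (pr3 V W Z ⁻¹ᵁ O)) := fun y _ => by rw [hT]; trivial
  have hθ : ∀ a, theta R (le_eta MX MY R a) (res (hle a) c') = theta R hηT c' := fun a =>
    theta_res R _ _ hηT c'
  obtain ⟨r, hr⟩ := Cube.exists_eq_tmul_of_forall_mem MX.cm MY.cm R
    (x := theta R hηT c') fun a => hθ a ▸ theta_mem_ring₁ MX MY R a _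
  have ht0 : theta R hηT c' = boxIncl (MX.cm.C MX.cm.base) (MY.cm.C MY.cm.base) R
      (rd (boxCh R (MX.ch MX.cm.base) (MY.ch MY.cm.base)).g ((boxCh R (MX.ch MX.cm.base) (MY.ch MY.cm.base)).top_le_g (hle (MX.cm.base, MY.cm.base))) c') := by
    exact (boxCh R (MX.ch MX.cm.base) (MY.ch MY.cm.base)).rd_gn (hle (MX.cm.base, MY.cm.base)) hηT c'
  have ht1 : boxIncl (MX.cm.C MX.cm.base) (MY.cm.C MY.cm.base) R (1 ⊗ₜ[K] r) =
      (1 : V.fn ⊗[K] W.fn) ⊗ₜ[K] r := by
    simp only [boxIncl, Algebra.TensorProduct.map_tmul, map_one]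
    rfl
  have ht : rd (boxCh R (MX.ch MX.cm.base) (MY.ch MY.cm.base)).g ((boxCh R (MX.ch MX.cm.base) (MY.ch MY.cm.base)).top_le_g (hle (MX.cm.base, MY.cm.base))) c' = 1 ⊗ₜ[K] r := by
    have e := (ht0.symm.trans hr).trans ht1.symm
    exact (boxCh R (MX.ch MX.cm.base) (MY.ch MY.cm.base)).inj e
  subst hc'
  have hr1 : r = 1 := by
    have e := rd_eval_eq_one Ψ (boxCh R (MX.ch MX.cm.base) (MY.ch MY.cm.base)).g
      (bcTo V W Z.str h hh) h (sec3 hx hy) (O := pr3 V W Z ⁻¹ᵁ O)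
    replace e := e hsR
      ((boxCh R (MX.ch MX.cm.base) (MY.ch MY.cm.base)).top_le_g (hle (MX.cm.base, MY.cm.base))) c hc
    rw [ht, hΨ] at e
    exact e
  have hc1 : ((bcTo V W Z.str h hh).app (pr3 V W Z ⁻¹ᵁ O)).hom c = 1 := by
    refine eq_of_res_eq (fun a => bOpen MX MY R a) hle (fun y _ => ?_) fun a => ?_
    · exact Opens.mem_iSup.1 ((iSup_bOpen MX MY R).symm ▸ Opens.mem_top y)
    · refine theta_injective MX MY R a ?_
      rw [hθ, hr, hr1, map_one, map_one]
      rfl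
  haveI : IsIso ((bcTo V W Z.str h hh).app (pr3 V W Z ⁻¹ᵁ O)) := (bcTo V W Z.str h hh).isIso_app _ fun y hy' => by
    show y ∈ Set.range (bcTo V W Z.str h hh)
    rw [range_bcTo, hO]
    exact hy'
  refine (ConcreteCategory.bijective_of_isIso ((bcTo V W Z.str h hh).app (pr3 V W Z ⁻¹ᵁ O))).1 ?_
  exact hc1.trans (map_one ((bcTo V W Z.str h hh).app (pr3 V W Z ⁻¹ᵁ O)).hom).symm

include hx hy in
/-- Functions over an open set of the third factor are determined along the section. -/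
theorem eq_one_of_sec_eq_one {O : Z.X.Opens} (hO : IsAffineOpen O)
    (c : Γ(P3 V W Z, pr3 V W Z ⁻¹ᵁ O))
    (hc : ((sec3 hx hy).app (pr3 V W Z ⁻¹ᵁ O)).hom c = 1) : c = 1 := by
  rcases (O : Set Z.X).eq_empty_or_nonempty with he | hne
  · have e : pr3 V W Z ⁻¹ᵁ O = ⊥ := eq_bot_iff.2 fun x hx' => by
      have : pr3 V W Z x ∈ (O : Set Z.X) := hx'
      rw [he] at this
      exact this.elim
    exact (CommRingCat.subsingleton_of_isTerminal
      ((P3 V W Z).sheaf.isTerminalOfEqEmpty e)).elim _ _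
  exact eq_one_of_sec_eq_one_aux hx hy (Z.chart hO hne) (Z.chart_over hO hne)
    (Z.range_chart hO hne) c hc

include hX hY in
/-- The theorem of the cube. -/
theorem pic_eq_one_of_faces {pz : Spec (CommRingCat.of K) ⟶ Z.X} (hz : pz ≫ Z.str = 𝟙 _)
    (hZ : Pic.map (pullback.lift (𝟙 (xy V W)) (xyStr V W ≫ pz)
      (by rw [Category.id_comp, Category.assoc, hz, Category.comp_id]) : xy V W ⟶ P3 V W Z) Q = 1) :
    Q = 1 := by
  -- the fibre at the base point
  have hz' : pz ≫ Z.str = spStr K K := hz.trans spStr_self.symm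
  have hfib : Pic.map (bcTo V W Z.str pz hz') Q = 1 := by
    have e : bcTo V W Z.str pz hz' = pullback.fst (xyStr V W) (spStr K K) ≫
        pullback.lift (𝟙 (xy V W)) (xyStr V W ≫ pz)
          (by rw [Category.id_comp, Category.assoc, hz, Category.comp_id]) := by
      refine pullback.hom_ext ?_ ?_
      · rw [bcTo_fst, Category.assoc, pullback.lift_fst, Category.comp_id]
      · rw [bcTo_snd, Category.assoc, pullback.lift_snd, ← Category.assoc (pullback.fst _ _),
          pullback.condition (f := xyStr V W) (g := spStr K K), Category.assoc]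
        exact congrArg (pullback.snd (xyStr V W) (spStr K K) ≫ ·)
          (show pz = spStr K K ≫ pz by rw [spStr_self]; exact (Category.id_comp pz).symm)
    rw [e, Pic.map_comp, hZ, map_one]
  -- one good open
  obtain ⟨_, ⟨W₁, hW₁, rfl⟩, hzW₁, -⟩ := Z.X.isBasis_affineOpens.exists_subset_of_mem_open
    (Set.mem_univ (pz (IsLocalRing.closedPoint K))) isOpen_univ
  have hpzW₁ : Set.range pz ⊆ (W₁ : Set Z.X) := by
    rintro _ ⟨t, rfl⟩
    haveI : Subsingleton (Spec (CommRingCat.of K)) :=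
      inferInstanceAs (Subsingleton (PrimeSpectrum K))
    rw [Subsingleton.elim t (IsLocalRing.closedPoint K)]
    exact hzW₁
  obtain ⟨O₁, hzO₁, -, hO₁, hG₁⟩ :=
    exists_goodOver_of_fiber hx hy hX hY hW₁ ⟨_, hzW₁⟩ pz hz' hpzW₁ hfib _ hzW₁
  -- good opens cover
  have cover : ∀ x : Z.X, ∃ O : Z.X.Opens, x ∈ O ∧ IsAffineOpen O ∧ GoodOver Q O := by
    intro x
    obtain ⟨_, ⟨W₀, hW₀, rfl⟩, hxW₀, -⟩ :=
      Z.X.isBasis_affineOpens.exists_subset_of_mem_open (Set.mem_univ x) isOpen_univ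
    obtain ⟨q, hq, hqmem⟩ := Z.exists_point_mem (O := O₁ ⊓ W₀)
      (nonempty_preirreducible_inter O₁.isOpen W₀.isOpen ⟨_, hzO₁⟩ ⟨_, hxW₀⟩)
    obtain ⟨O, h1, -, h2, h3⟩ := exists_goodOver_of_fiber hx hy hX hY hW₀ ⟨_, hxW₀⟩ q hq
      (hqmem.trans fun y hy' => hy'.2) (hG₁.map_bcTo q hq (hqmem.trans fun y hy' => hy'.1)) x hxW₀
    exact ⟨O, h1, h2, h3⟩
  choose O hxO hO hG using cover
  obtain ⟨L, rfl⟩ := Pic.mk_surjective Q
  rw [Pic.mk_eq_one_iff]
  haveI : Z.X.IsSeparated := ⟨by rw [← terminal.comp_from Z.str]; infer_instance⟩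
  refine LB.isTrivial_of_local_base (pr3 V W Z) (sec3 hx hy) (sec3_pr3 hx hy) L O
    (Opens.ext (Set.eq_univ_of_forall fun x => Opens.mem_iSup.2 ⟨x, hxO x⟩))
    (fun i => ?_) ?_ fun i j => eq_one_of_sec_eq_one hx hy ((hO i).inf (hO j))
  · rw [← Pic.mk_eq_one_iff, ← Pic.map_mk]
    exact hG i
  · have e : sec3 hx hy = pullback.lift (f := V.str) (g := Z.str) (Z.str ≫ px) (𝟙 _)
        (by rw [Category.assoc, hx, Category.comp_id, Category.id_comp]) ≫ faceY hy := by
      refine pullback.hom_ext ?_ ?_ <;>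
        simp only [sec3, faceY, pullback.map, Category.assoc, pullback.lift_fst,
          pullback.lift_fst_assoc, pullback.lift_snd, pullback.lift_snd_assoc, Category.comp_id]
    rw [← Pic.mk_eq_one_iff, ← Pic.map_mk, e, Pic.map_comp, hY, map_one]

end FLTAgent.AbScheme
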