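import Fermat.Agent.AbScheme.Bridge.CubePic
import Fermat.Agent.AbScheme.Quadratic

/-!
The theorem of the cube on the points of an abelian variety.
-/

set_option autoImplicit false
set_option linter.unusedSectionVars false
set_option linter.style.haveILetI false

noncomputable section

universe u

namespace FLTAgent.AbScheme

open CategoryTheory CategoryTheory.Limits AlgebraicGeometry TopologicalSpace NeronModelInfra
  GoodReductionJacobian

variable {K : Type u} [Field K] {A : Scheme.{u}} {f : A ⟶ Spec (CommRingCat.of K)}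
  (L : RelativeGroupLaw K f)

/-- The alternating product of the pullbacks along the partial sums of three points. -/
def cubeDefect {T : Scheme.{u}} (t : T ⟶ Spec (CommRingCat.of K)) (x y z : SchemeHomOver t f)
    (P : Pic A) : Pic T :=
  Pic.map (L.mul t (L.mul t x y) z).1 P * Pic.map x.1 P * Pic.map y.1 P * Pic.map z.1 P *
    (Pic.map (L.mul t x y).1 P * Pic.map (L.mul t x z).1 P * Pic.map (L.mul t y z).1 P)⁻¹

theorem map_cubeDefect {T T' : Scheme.{u}} (t : T ⟶ Spec (CommRingCat.of K))
    (t' : T' ⟶ Spec (CommRingCat.of K)) (ψ : T' ⟶ T) (hψ : ψ ≫ t = t')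
    (x y z : SchemeHomOver t f) (P : Pic A) :
    Pic.map ψ (cubeDefect L t x y z P) =
      cubeDefect L t' (schemeHomOverComp ψ hψ x) (schemeHomOverComp ψ hψ y)
        (schemeHomOverComp ψ hψ z) P := by
  simp only [cubeDefect, map_mul, map_inv, ← Pic.map_comp, ← L.mul_natural t t' ψ hψ]
  rfl

theorem cubeDefect_one_left {T : Scheme.{u}} (t : T ⟶ Spec (CommRingCat.of K))
    (y z : SchemeHomOver t f) (P : Pic A) : cubeDefect L t (L.one t) y z P = 1 := by
  simp only [cubeDefect, L.one_mul, Pic.map_one_point L t P]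
  rw [mul_inv_eq_one]
  simp only [mul_one]
  simp only [mul_comm, mul_left_comm]

theorem cubeDefect_one_middle {T : Scheme.{u}} (t : T ⟶ Spec (CommRingCat.of K))
    (x z : SchemeHomOver t f) (P : Pic A) : cubeDefect L t x (L.one t) z P = 1 := by
  simp only [cubeDefect, L.one_mul, L.mul_one, Pic.map_one_point L t P]
  rw [mul_inv_eq_one]
  simp only [mul_one]
  simp only [mul_comm, mul_left_comm]

theorem cubeDefect_one_right {T : Scheme.{u}} (t : T ⟶ Spec (CommRingCat.of K))
    (x y : SchemeHomOver t f) (P : Pic A) : cubeDefect L t x y (L.one t) P = 1 := by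
  simp only [cubeDefect, L.mul_one, Pic.map_one_point L t P]
  rw [mul_inv_eq_one]
  simp only [one_mul, mul_comm, mul_left_comm]

theorem schemeHomOver_eq_one {T : Scheme.{u}} (t : T ⟶ Spec (CommRingCat.of K))
    (x : SchemeHomOver t f) (h : x.1 = t ≫ (L.one (𝟙 (Spec (CommRingCat.of K)))).1) :
    x = L.one t :=
  Subtype.ext (h.trans (congrArg Subtype.val (L.one_natural (𝟙 _) t t (Category.comp_id t))))

variable [IsAlgClosed K] [IsProper f] [Smooth f] [IsIntegral A]

/-- The theorem of the cube on points. -/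
theorem cubeRel : CubeRel L := by
  intro T t x y z P
  set V := varOf f with hV
  set e : Spec (CommRingCat.of K) ⟶ V.X := (L.one (𝟙 (Spec (CommRingCat.of K)))).1 with he
  have hef : e ≫ V.str = 𝟙 _ := (L.one (𝟙 (Spec (CommRingCat.of K)))).2
  let t3 : P3 V V V ⟶ Spec (CommRingCat.of K) := pullback.fst (xyStr V V) V.str ≫ xyStr V V
  let p1 : SchemeHomOver t3 f :=
    ⟨pullback.fst (xyStr V V) V.str ≫ pullback.fst V.str V.str, by
      simp only [t3, xyStr, Category.assoc]; rfl⟩
  let p2 : SchemeHomOver t3 f :=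
    ⟨pullback.fst (xyStr V V) V.str ≫ pullback.snd V.str V.str, by
      simp only [t3, xyStr, Category.assoc]
      exact congrArg (pullback.fst (xyStr V V) V.str ≫ ·) pullback.condition.symm⟩
  let p3 : SchemeHomOver t3 f :=
    ⟨pullback.snd (xyStr V V) V.str, pullback.condition.symm⟩
  have hQ : cubeDefect L t3 p1 p2 p3 P = 1 := by
    refine pic_eq_one_of_faces (V := V) (W := V) (Z := V) hef hef ?_ ?_ hef ?_
    · rw [map_cubeDefect L t3 _ (faceX hef) rfl]
      rw [schemeHomOver_eq_one L _ (schemeHomOverComp (faceX hef) rfl p1) ?_,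
        cubeDefect_one_left]
      show faceX hef ≫ pullback.fst _ _ ≫ pullback.fst _ _ =
        (faceX hef ≫ pullback.fst _ _ ≫ xyStr V V) ≫ e
      simp only [faceX, secX, pullback.map, xyStr, Category.assoc, pullback.lift_fst_assoc,
        pullback.lift_fst, reassoc_of% hef]
    · rw [map_cubeDefect L t3 _ (faceY hef) rfl]
      rw [schemeHomOver_eq_one L _ (schemeHomOverComp (faceY hef) rfl p2) ?_,
        cubeDefect_one_middle]
      show faceY hef ≫ pullback.fst _ _ ≫ pullback.snd _ _ =
        (faceY hef ≫ pullback.fst _ _ ≫ xyStr V V) ≫ e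
      simp only [faceY, secY, pullback.map, xyStr, Category.assoc, pullback.lift_fst_assoc,
        pullback.lift_snd, Category.id_comp]
    · rw [map_cubeDefect L t3 _ _ rfl]
      rw [schemeHomOver_eq_one L _ (schemeHomOverComp _ rfl p3) ?_, cubeDefect_one_right]
      show pullback.lift _ _ _ ≫ pullback.snd _ _ = (pullback.lift _ _ _ ≫ pullback.fst _ _ ≫ _) ≫ e
      simp only [pullback.lift_snd, pullback.lift_fst_assoc, Category.id_comp]
  -- specialise to the given points
  let ψ : T ⟶ P3 V V V :=
    pullback.lift (pullback.lift x.1 y.1 (x.2.trans y.2.symm)) z.1 (by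
      rw [← Category.assoc, pullback.lift_fst]
      exact x.2.trans z.2.symm)
  have hψ : ψ ≫ t3 = t := by
    simp only [ψ, t3, xyStr, pullback.lift_fst_assoc]
    exact x.2
  have e1 : schemeHomOverComp ψ hψ p1 = x :=
    Subtype.ext ((pullback.lift_fst_assoc _ _ _ _).trans (pullback.lift_fst _ _ _))
  have e2 : schemeHomOverComp ψ hψ p2 = y :=
    Subtype.ext ((pullback.lift_fst_assoc _ _ _ _).trans (pullback.lift_snd _ _ _))
  have e3 : schemeHomOverComp ψ hψ p3 = z :=
    Subtype.ext (pullback.lift_snd _ _ _)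
  have h := map_cubeDefect L t3 t ψ hψ p1 p2 p3 P
  rw [hQ, map_one, e1, e2, e3] at h
  exact mul_inv_eq_one.1 h.symm

end FLTAgent.AbScheme
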