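import Fermat.Agent.AbScheme.Bridge.Bundle

/-!
Trivial faces of a line bundle give trivial faces of its matrices.
-/

set_option autoImplicit false
set_option linter.unusedSectionVars false
set_option linter.style.haveILetI false

noncomputable section

universe u

namespace FLTAgent.AbScheme

open CategoryTheory CategoryTheory.Limits AlgebraicGeometry TopologicalSpace Opposite
open scoped TensorProduct Matrix

variable {K : Type u} [Field K]

theorem spMap_algHom_comp {B C D : Type u} [CommRing B] [CommRing C] [CommRing D] [Algebra K B]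
    [Algebra K C] [Algebra K D] (φ : B →ₐ[K] C) (ψ : C →ₐ[K] D) :
    spMap (ψ.comp φ) = spMap ψ ≫ spMap φ := by
  rw [← Spec.map_comp]
  rfl

theorem pchart_congr {X Y : Scheme.{u}} {a : X ⟶ Spec (CommRingCat.of K)}
    {b : Y ⟶ Spec (CommRingCat.of K)} {B C : Type u} [CommRing B] [CommRing C] [Algebra K B]
    [Algebra K C] {g g' : Spec (CommRingCat.of B) ⟶ X} (e : g = g') (hg : g ≫ a = spStr K B)
    (hg' : g' ≫ a = spStr K B) (h : Spec (CommRingCat.of C) ⟶ Y) (hh : h ≫ b = spStr K C) :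
    pchart a b g hg h hh = pchart a b g' hg' h hh := by
  subst e
  rfl

theorem pchart_map {X X' Y : Scheme.{u}} {a : X ⟶ Spec (CommRingCat.of K)}
    {a' : X' ⟶ Spec (CommRingCat.of K)}
    {b : Y ⟶ Spec (CommRingCat.of K)} {B C : Type u} [CommRing B] [CommRing C] [Algebra K B]
    [Algebra K C] (g : Spec (CommRingCat.of B) ⟶ X) (hg : g ≫ a = spStr K B)
    (h : Spec (CommRingCat.of C) ⟶ Y) (hh : h ≫ b = spStr K C) (i : X ⟶ X') (hi : i ≫ a' = a) :
    pchart a b g hg h hh ≫ pullback.map a b a' b i (𝟙 Y) (𝟙 _) (by simp [hi]) (by simp) =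
      pchart a' b (g ≫ i) (by rw [Category.assoc, hi, hg]) h hh := by
  refine pullback.hom_ext ?_ ?_
  · rw [Category.assoc, pchart_fst, show pullback.map a b a' b i (𝟙 Y) (𝟙 _) _ _ ≫ pullback.fst a' b
      = pullback.fst a b ≫ i from pullback.lift_fst _ _ _, ← Category.assoc, pchart_fst,
      Category.assoc]
  · rw [Category.assoc, pchart_snd, show pullback.map a b a' b i (𝟙 Y) (𝟙 _) _ _ ≫ pullback.snd a' b
      = pullback.snd a b ≫ 𝟙 Y from pullback.lift_snd _ _ _, Category.comp_id, pchart_snd]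

variable {V W : Var K} {px : Spec (CommRingCat.of K) ⟶ V.X} {py : Spec (CommRingCat.of K) ⟶ W.X}
  (MX : V.Model px) (MY : W.Model py)

theorem Var.Model.spMap_ev {p : Spec (CommRingCat.of K) ⟶ V.X} (M : V.Model p) :
    spMap M.cm.ev ≫ (M.ch M.cm.base).g = p := by
  have h := M.ev_eq (M.C_eq _).le
    (M.cm.ev.comp (Subalgebra.inclusion (M.C_eq M.cm.base).ge)) (AlgHom.ext fun x => rfl)
  refine Eq.trans ?_ h
  rw [spMap_algHom_comp, Category.assoc]
  rfl

theorem Var.Model.range_subset {p : Spec (CommRingCat.of K) ⟶ V.X} (M : V.Model p) (x) :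
    p x ∈ M.U M.cm.base := by
  have e : p x = (M.ch M.cm.base).g (spMap M.cm.ev x) :=
    (congrArg (fun q : Spec (CommRingCat.of K) ⟶ V.X => q x) M.spMap_ev).symm.trans
      (Scheme.Hom.comp_apply _ _ _)
  exact Set.mem_of_eq_of_mem e ((M.ch M.cm.base).range_eq.le (Set.mem_range_self _))

/-- The section of the first projection. -/
def secY (hy : py ≫ W.str = 𝟙 _) : V.X ⟶ xy V W :=
  pullback.lift (𝟙 _) (V.str ≫ py) (by rw [Category.id_comp, Category.assoc, hy, Category.comp_id])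

theorem secY_over (hy : py ≫ W.str = 𝟙 _) : secY (V := V) hy ≫ xyStr V W = V.str := by
  rw [← Category.assoc, secY, pullback.lift_fst, Category.id_comp]

/-- The section of the second projection. -/
def secX (hx : px ≫ V.str = 𝟙 _) : W.X ⟶ xy V W :=
  pullback.lift (W.str ≫ px) (𝟙 _) (by rw [Category.id_comp, Category.assoc, hx, Category.comp_id])

theorem secX_over (hx : px ≫ V.str = 𝟙 _) : secX (W := W) hx ≫ xyStr V W = W.str := by
  rw [← Category.assoc, secX, pullback.lift_fst, Category.assoc, hx, Category.comp_id]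

variable (R : Type u) [CommRing R] [Algebra K R]

/-- The face over the base point of the second factor. -/
def jY (hy : py ≫ W.str = 𝟙 _) : pullback V.str (spStr K R) ⟶ MM V W R :=
  pullback.map _ _ _ _ (secY hy) (𝟙 _) (𝟙 _) (by rw [secY_over]; simp) (by simp)

/-- The face over the base point of the first factor. -/
def jX (hx : px ≫ V.str = 𝟙 _) : pullback W.str (spStr K R) ⟶ MM V W R :=
  pullback.map _ _ _ _ (secX hx) (𝟙 _) (𝟙 _) (by rw [secX_over]; simp) (by simp)

/-- The generic fibre of a face. -/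
abbrev etaSide (Z : Var K) :
    Spec (CommRingCat.of (Z.fn ⊗[K] R)) ⟶ pullback Z.str (spStr K R) :=
  pchart Z.str (spStr K R) Z.gen Z.gen_over (𝟙 _) (Category.id_comp _)

/-- The chart of a face. -/
def sideCh {Z : Var K} {U : Z.X.Opens} {A : Subalgebra K Z.fn} (c : Ch Z.str Z.gen A.val U) :
    Ch (pullback.fst Z.str (spStr K R) ≫ Z.str) (etaSide R Z)
      (Algebra.TensorProduct.map A.val (AlgHom.id K R)) (pullback.fst Z.str (spStr K R) ⁻¹ᵁ U) :=
  c.baseChange Z.gen_over R

variable {R}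

theorem le_jY_preimage (hy : py ≫ W.str = 𝟙 _) (i : MX.cm.ι) :
    pullback.fst V.str (spStr K R) ⁻¹ᵁ MX.U i ≤
      jY (V := V) R hy ⁻¹ᵁ bOpen MX MY R (i, MY.cm.base) := by
  intro z hz
  have e1 : jY (V := V) R hy ≫ pullback.fst _ _ = pullback.fst _ _ ≫ secY hy :=
    pullback.lift_fst _ _ _
  refine ⟨?_, ?_⟩
  · show ((jY R hy ≫ pullback.fst _ _) ≫ pullback.fst V.str W.str) z ∈ MX.U i
    rw [e1, Category.assoc, secY, pullback.lift_fst, Category.comp_id]
    exact hz
  · show ((jY R hy ≫ pullback.fst _ _) ≫ pullback.snd V.str W.str) z ∈ MY.U MY.cm.base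
    rw [e1, Category.assoc, secY, pullback.lift_snd, ← Category.assoc, Scheme.Hom.comp_apply]
    exact MY.range_subset _

theorem le_jX_preimage (hx : px ≫ V.str = 𝟙 _) (i : MY.cm.ι) :
    pullback.fst W.str (spStr K R) ⁻¹ᵁ MY.U i ≤
      jX (W := W) R hx ⁻¹ᵁ bOpen MX MY R (MX.cm.base, i) := by
  intro z hz
  have e1 : jX (W := W) R hx ≫ pullback.fst _ _ = pullback.fst _ _ ≫ secX hx :=
    pullback.lift_fst _ _ _
  refine ⟨?_, ?_⟩
  · show ((jX R hx ≫ pullback.fst _ _) ≫ pullback.fst V.str W.str) z ∈ MX.U MX.cm.base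
    rw [e1, Category.assoc, secX, pullback.lift_fst, ← Category.assoc, Scheme.Hom.comp_apply]
    exact MX.range_subset _
  · show ((jX R hx ≫ pullback.fst _ _) ≫ pullback.snd V.str W.str) z ∈ MY.U i
    rw [e1, Category.assoc, secX, pullback.lift_snd, Category.comp_id]
    exact hz

theorem etaSide_jY (hy : py ≫ W.str = 𝟙 _) {U : V.X.Opens} {A : Subalgebra K V.fn}
    (c : Ch V.str V.gen A.val U) :
    spMap (Algebra.TensorProduct.map ((Algebra.TensorProduct.rid K K V.fn).toAlgHom.comp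
      (Algebra.TensorProduct.map A.val MY.cm.ev)) (AlgHom.id K R)) ≫
        (boxCh R c (MY.ch MY.cm.base)).g = etaSide R V ≫ jY R hy := by
  set ψ := (Algebra.TensorProduct.rid K K V.fn).toAlgHom.comp
      (Algebra.TensorProduct.map A.val MY.cm.ev) with hψ
  have e : spMap ψ ≫ pchart V.str W.str c.g c.hover (MY.ch MY.cm.base).g (MY.ch MY.cm.base).hover =
      V.gen ≫ secY hy := by
    refine pullback.hom_ext ?_ ?_
    · rw [Category.assoc, pchart_fst, ← Category.assoc, ← spMap_algHom_comp,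
        show ψ.comp Algebra.TensorProduct.includeLeft = A.val from
          AlgHom.ext fun a => by simp [hψ], c.gen, Category.assoc, secY, pullback.lift_fst,
        Category.comp_id]
    · rw [Category.assoc, pchart_snd, ← Category.assoc, ← spMap_algHom_comp,
        show ψ.comp Algebra.TensorProduct.includeRight =
            (Algebra.ofId K V.fn).comp MY.cm.ev from
          AlgHom.ext fun a => by simp [hψ, Algebra.smul_def, Algebra.ofId_apply], spMap_algHom_comp,
        Category.assoc, MY.spMap_ev, Category.assoc, secY, pullback.lift_snd, ← Category.assoc,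
        V.gen_over]
      rfl
  rw [etaSide, jY, pchart_map _ _ _ _ _ (secY_over hy)]
  exact spMap_map_pchart (hg := pchart_over) (hh := Category.id_comp _) _ _ _ _ e (by
    rw [show spMap (AlgHom.id K R) = 𝟙 _ from Spec.map_id _, Category.id_comp])

theorem etaSide_jX (hx : px ≫ V.str = 𝟙 _) {U : W.X.Opens} {B : Subalgebra K W.fn}
    (d : Ch W.str W.gen B.val U) :
    spMap (Algebra.TensorProduct.map ((Algebra.TensorProduct.lid K W.fn).toAlgHom.comp
      (Algebra.TensorProduct.map MX.cm.ev B.val)) (AlgHom.id K R)) ≫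
        (boxCh R (MX.ch MX.cm.base) d).g = etaSide R W ≫ jX R hx := by
  set ψ := (Algebra.TensorProduct.lid K W.fn).toAlgHom.comp
      (Algebra.TensorProduct.map MX.cm.ev B.val) with hψ
  have e : spMap ψ ≫ pchart V.str W.str (MX.ch MX.cm.base).g (MX.ch MX.cm.base).hover d.g d.hover =
      W.gen ≫ secX hx := by
    refine pullback.hom_ext ?_ ?_
    · rw [Category.assoc, pchart_fst, ← Category.assoc, ← spMap_algHom_comp,
        show ψ.comp Algebra.TensorProduct.includeLeft =
            (Algebra.ofId K W.fn).comp MX.cm.ev from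
          AlgHom.ext fun a => by simp [hψ, Algebra.smul_def, Algebra.ofId_apply], spMap_algHom_comp,
        Category.assoc, MX.spMap_ev, Category.assoc, secX, pullback.lift_fst, ← Category.assoc,
        W.gen_over]
      rfl
    · rw [Category.assoc, pchart_snd, ← Category.assoc, ← spMap_algHom_comp,
        show ψ.comp Algebra.TensorProduct.includeRight = B.val from
          AlgHom.ext fun a => by simp [hψ], d.gen, Category.assoc, secX, pullback.lift_snd,
        Category.comp_id]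
  rw [etaSide, jX, pchart_map _ _ _ _ _ (secX_over hx)]
  exact spMap_map_pchart (hg := pchart_over) (hh := Category.id_comp _) _ _ _ _ e (by
    rw [show spMap (AlgHom.id K R) = 𝟙 _ from Spec.map_id _, Category.id_comp])

variable {L : LB (MM V W R)} (F : L.Framing (bOpen MX MY R))

theorem faceY_of_isTrivial (hy : py ≫ W.str = 𝟙 _) (h : (L.pull (jY R hy)).IsTrivial) :
    Cube.FaceY (toBundle MX MY F) := by
  set j := jY (V := V) R hy with hj
  obtain ⟨vec⟩ := (F.pull j).nonempty_vec h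
  have h1 : ∀ i, pullback.fst V.str (spStr K R) ⁻¹ᵁ MX.U i ≤
      j ⁻¹ᵁ bOpen MX MY R (i, MY.cm.base) := le_jY_preimage MX MY hy
  have h2 : ∀ i i', pullback.fst V.str (spStr K R) ⁻¹ᵁ (MX.U i ⊓ MX.U i') ≤
      j ⁻¹ᵁ (bOpen MX MY R (i, MY.cm.base) ⊓ bOpen MX MY R (i', MY.cm.base)) :=
    fun i i' z hz => ⟨h1 i hz.1, h1 i' hz.2⟩
  have hη : ∀ i, ⊤ ≤ etaSide R V ⁻¹ᵁ (j ⁻¹ᵁ bOpen MX MY R (i, MY.cm.base)) := fun i =>
    (sideCh R (MX.ch i)).top_le (h1 i)
  have hη₂ : ∀ i i', ⊤ ≤ etaSide R V ⁻¹ᵁ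
      (j ⁻¹ᵁ (bOpen MX MY R (i, MY.cm.base) ⊓ bOpen MX MY R (i', MY.cm.base))) := fun i i' =>
    (sideCh R (MX.ch₂ i i')).top_le (h2 i i')
  refine ⟨fun i k => rd (etaSide R V) (hη i) (vec.v (i, MY.cm.base) k),
    fun i k => rd (etaSide R V) (hη i) (vec.w (i, MY.cm.base) k),
    fun i i' => ((F.pull j).T (i, MY.cm.base) (i', MY.cm.base)).map (rd (etaSide R V) (hη₂ i i')),
    fun i i' k l => ?_, fun i k => ⟨(sideCh R (MX.ch i)).rd_mem (h1 i) _ _,
      (sideCh R (MX.ch i)).rd_mem (h1 i) _ _⟩, fun i i' => ⟨funext fun k => ?_, funext fun l => ?_⟩,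
    fun i => ?_⟩
  · set cbox := boxCh R (MX.ch₂ i i') (MY.ch MY.cm.base)
    set c := F.T (i, MY.cm.base) (i', MY.cm.base) k l
    have hle : boxO V W R (MX.U i ⊓ MX.U i') (MY.U MY.cm.base) ≤
        bOpen MX MY R (i, MY.cm.base) ⊓ bOpen MX MY R (i', MY.cm.base) :=
      fun z hz => ⟨⟨hz.1.1, hz.2⟩, hz.1.2, hz.2⟩
    refine ⟨rd cbox.g (cbox.top_le_g hle) c, ?_, ?_⟩
    · exact (cbox.rd_gn hle (le_eta₂ MX MY R _ _) c).symm
    · show _ = rd (etaSide R V) (hη₂ i i') _
      rw [show (F.pull j).T (i, MY.cm.base) (i', MY.cm.base) k l = (j.app _).hom c from rfl]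
      have h' : ⊤ ≤ (etaSide R V ≫ j) ⁻¹ᵁ
          (bOpen MX MY R (i, MY.cm.base) ⊓ bOpen MX MY R (i', MY.cm.base)) := hη₂ i i'
      rw [rd_app (etaSide R V) j (hη₂ i i') h']
      revert h'
      rw [hj, ← etaSide_jY MY hy (MX.ch₂ i i')]
      intro h'
      exact (rd_specMap cbox.g _ (cbox.top_le_g hle) h' c).symm
  · exact (congrArg (fun x => ((((F.pull j).T (i, MY.cm.base) (i', MY.cm.base)).map
        (rd (etaSide R V) (hη₂ i i'))) *ᵥ x) k)
      (funext fun l => (rd_res (etaSide R V) _ (hη₂ i i') _ _).symm)).trans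
        (((RingHom.map_mulVec (rd (etaSide R V) (hη₂ i i')) _ _ k).symm.trans
          (congrArg (rd (etaSide R V) (hη₂ i i')) (congrFun (vec.v_rel _ _) k))).trans
            (rd_res (etaSide R V) _ (hη₂ i i') (hη i') _))
  · exact (congrArg (fun x => (x ᵥ* (((F.pull j).T (i, MY.cm.base) (i', MY.cm.base)).map
        (rd (etaSide R V) (hη₂ i i')))) l)
      (funext fun k => (rd_res (etaSide R V) _ (hη₂ i i') _ _).symm)).trans
        (((RingHom.map_vecMul (rd (etaSide R V) (hη₂ i i')) _ _ l).symm.trans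
          (congrArg (rd (etaSide R V) (hη₂ i i')) (congrFun (vec.w_rel _ _) l))).trans
            (rd_res (etaSide R V) _ (hη₂ i i') (hη i) _))
  · have h3 := congrArg (rd (etaSide R V) (hη i)) (vec.one (i, MY.cm.base))
    simp only [dotProduct, map_sum, map_mul, map_one] at h3
    exact h3

theorem faceX_of_isTrivial (hx : px ≫ V.str = 𝟙 _) (h : (L.pull (jX R hx)).IsTrivial) :
    Cube.FaceX (toBundle MX MY F) := by
  set j := jX (W := W) R hx with hj
  obtain ⟨vec⟩ := (F.pull j).nonempty_vec h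
  have h1 : ∀ i, pullback.fst W.str (spStr K R) ⁻¹ᵁ MY.U i ≤
      j ⁻¹ᵁ bOpen MX MY R (MX.cm.base, i) := le_jX_preimage MX MY hx
  have h2 : ∀ i i', pullback.fst W.str (spStr K R) ⁻¹ᵁ (MY.U i ⊓ MY.U i') ≤
      j ⁻¹ᵁ (bOpen MX MY R (MX.cm.base, i) ⊓ bOpen MX MY R (MX.cm.base, i')) :=
    fun i i' z hz => ⟨h1 i hz.1, h1 i' hz.2⟩
  have hη : ∀ i, ⊤ ≤ etaSide R W ⁻¹ᵁ (j ⁻¹ᵁ bOpen MX MY R (MX.cm.base, i)) := fun i =>
    (sideCh R (MY.ch i)).top_le (h1 i)
  have hη₂ : ∀ i i', ⊤ ≤ etaSide R W ⁻¹ᵁ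
      (j ⁻¹ᵁ (bOpen MX MY R (MX.cm.base, i) ⊓ bOpen MX MY R (MX.cm.base, i'))) := fun i i' =>
    (sideCh R (MY.ch₂ i i')).top_le (h2 i i')
  refine ⟨fun i k => rd (etaSide R W) (hη i) (vec.v (MX.cm.base, i) k),
    fun i k => rd (etaSide R W) (hη i) (vec.w (MX.cm.base, i) k),
    fun i i' => ((F.pull j).T (MX.cm.base, i) (MX.cm.base, i')).map (rd (etaSide R W) (hη₂ i i')),
    fun i i' k l => ?_, fun i k => ⟨(sideCh R (MY.ch i)).rd_mem (h1 i) _ _,
      (sideCh R (MY.ch i)).rd_mem (h1 i) _ _⟩, fun i i' => ⟨funext fun k => ?_, funext fun l => ?_⟩,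
    fun i => ?_⟩
  · set cbox := boxCh R (MX.ch MX.cm.base) (MY.ch₂ i i')
    set c := F.T (MX.cm.base, i) (MX.cm.base, i') k l
    have hle : boxO V W R (MX.U MX.cm.base) (MY.U i ⊓ MY.U i') ≤
        bOpen MX MY R (MX.cm.base, i) ⊓ bOpen MX MY R (MX.cm.base, i') :=
      fun z hz => ⟨⟨hz.1, hz.2.1⟩, hz.1, hz.2.2⟩
    refine ⟨rd cbox.g (cbox.top_le_g hle) c, ?_, ?_⟩
    · exact (cbox.rd_gn hle (le_eta₂ MX MY R _ _) c).symm
    · show _ = rd (etaSide R W) (hη₂ i i') _
      rw [show (F.pull j).T (MX.cm.base, i) (MX.cm.base, i') k l = (j.app _).hom c from rfl]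
      have h' : ⊤ ≤ (etaSide R W ≫ j) ⁻¹ᵁ
          (bOpen MX MY R (MX.cm.base, i) ⊓ bOpen MX MY R (MX.cm.base, i')) := hη₂ i i'
      rw [rd_app (etaSide R W) j (hη₂ i i') h']
      revert h'
      rw [hj, ← etaSide_jX MX hx (MY.ch₂ i i')]
      intro h'
      exact (rd_specMap cbox.g _ (cbox.top_le_g hle) h' c).symm
  · exact (congrArg (fun x => ((((F.pull j).T (MX.cm.base, i) (MX.cm.base, i')).map
        (rd (etaSide R W) (hη₂ i i'))) *ᵥ x) k)
      (funext fun l => (rd_res (etaSide R W) _ (hη₂ i i') _ _).symm)).trans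
        (((RingHom.map_mulVec (rd (etaSide R W) (hη₂ i i')) _ _ k).symm.trans
          (congrArg (rd (etaSide R W) (hη₂ i i')) (congrFun (vec.v_rel _ _) k))).trans
            (rd_res (etaSide R W) _ (hη₂ i i') (hη i') _))
  · exact (congrArg (fun x => (x ᵥ* (((F.pull j).T (MX.cm.base, i) (MX.cm.base, i')).map
        (rd (etaSide R W) (hη₂ i i')))) l)
      (funext fun k => (rd_res (etaSide R W) _ (hη₂ i i') _ _).symm)).trans
        (((RingHom.map_vecMul (rd (etaSide R W) (hη₂ i i')) _ _ l).symm.trans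
          (congrArg (rd (etaSide R W) (hη₂ i i')) (congrFun (vec.w_rel _ _) l))).trans
            (rd_res (etaSide R W) _ (hη₂ i i') (hη i) _))
  · have h3 := congrArg (rd (etaSide R W) (hη i)) (vec.one (MX.cm.base, i))
    simp only [dotProduct, map_sum, map_mul, map_one] at h3
    exact h3

end FLTAgent.AbScheme
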