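import Fermat.Agent.AbScheme.Line

/-!
Sections of a cocycle over an open set: values in charts, pairing, pullback, lifting along open
subschemes.
-/

set_option autoImplicit false
set_option linter.unusedSectionVars false
set_option linter.style.haveILetI false

noncomputable section

universe u v

namespace FLTAgent.AbScheme

open CategoryTheory AlgebraicGeometry TopologicalSpace Opposite

variable {X Y Z : Scheme.{u}}

namespace LB

/-- A section over an open set. -/
@[ext]
structure SecOn (L : LB X) (O : X.Opens) : Type u where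
  /-- The local functions. -/
  s : ∀ x, Γ(X, O ⊓ L.U x)
  rel : ∀ x y (W : X.Opens) (h₁ : W ≤ O ⊓ L.U x) (h₂ : W ≤ O ⊓ L.U y) (h : W ≤ L.U x ⊓ L.U y),
    res h₁ (s x) = res h (L.g x y) * res h₂ (s y)

variable {L : LB X} {O O' : X.Opens}

/-- The value of a section in a chart. -/
def SecOn.val (s : L.SecOn O) {W : X.Opens} (x : X) (hO : W ≤ O) (hx : W ≤ L.U x) : Γ(X, W) :=
  res (le_inf hO hx) (s.s x)

theorem SecOn.res_val (s : L.SecOn O) {W W' : X.Opens} (x : X) (hO : W ≤ O) (hx : W ≤ L.U x)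
    (e : W' ≤ W) : res e (s.val x hO hx) = s.val x (e.trans hO) (e.trans hx) :=
  res_res _ _ _

theorem SecOn.val_rel (s : L.SecOn O) {W : X.Opens} (x y : X) (hO : W ≤ O) (hx : W ≤ L.U x)
    (hy : W ≤ L.U y) :
    s.val x hO hx = res (le_inf hx hy) (L.g x y) * s.val y hO hy :=
  s.rel x y W _ _ _

/-- Two sections are equal to those with given values in charts. -/
theorem exists_secOn {ι : Type v} (W : ι → X.Opens) (κ : ι → X) (hWO : ∀ i, W i ≤ O)
    (hW : ∀ i, W i ≤ L.U (κ i)) (cov : ∀ x ∈ O, ∃ i, x ∈ W i) (c : ∀ i, Γ(X, W i))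
    (hc : ∀ i j (A : X.Opens) (h₁ : A ≤ W i) (h₂ : A ≤ W j) (h : A ≤ L.U (κ i) ⊓ L.U (κ j)),
      res h₁ (c i) = res h (L.g (κ i) (κ j)) * res h₂ (c j)) :
    ∃ s : L.SecOn O, ∀ i, s.val (κ i) (hWO i) (hW i) = c i := by
  have hg : ∀ x, ∃ b : Γ(X, O ⊓ L.U x), ∀ i,
      res (inf_le_left : O ⊓ L.U x ⊓ W i ≤ _) b =
        res (inf_le_inf inf_le_right (hW i)) (L.g x (κ i)) * res inf_le_right (c i) := by
    intro x
    refine exists_res_eq (fun i => O ⊓ L.U x ⊓ W i) (fun i => inf_le_left) (fun y hy => ?_) _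
      fun i j => ?_
    · obtain ⟨i, hi⟩ := cov y hy.1
      exact ⟨i, hy, hi⟩
    simp only [map_mul, res_res]
    rw [hc i j _ (inf_le_left.trans inf_le_right) (inf_le_right.trans inf_le_right)
      (le_inf ((inf_le_left.trans inf_le_right).trans (hW i))
        ((inf_le_right.trans inf_le_right).trans (hW j))), ← mul_assoc, L.res_cocycle]
  choose b hb using hg
  have hb' : ∀ (x : X) (i : ι) (A : X.Opens) (h : A ≤ O ⊓ L.U x) (h' : A ≤ W i)
      (hg : A ≤ L.U x ⊓ L.U (κ i)),
      res h (b x) = res hg (L.g x (κ i)) * res h' (c i) := by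
    intro x i A h h' hg
    have e := congrArg (res (le_inf h h')) (hb x i)
    simpa only [map_mul, res_res] using e
  refine ⟨⟨b, fun x y A h₁ h₂ h => ?_⟩, fun i => ?_⟩
  · refine eq_of_res_eq (fun i => A ⊓ W i) (fun i => inf_le_left) (fun z hz => ?_) fun i => ?_
    · obtain ⟨i, hi⟩ := cov z (h₁ hz).1
      exact ⟨i, hz, hi⟩
    simp only [map_mul, res_res]
    rw [hb' x i _ (inf_le_left.trans h₁) inf_le_right
        (le_inf ((inf_le_left.trans h₁).trans inf_le_right) (inf_le_right.trans (hW i))),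
      hb' y i _ (inf_le_left.trans h₂) inf_le_right
        (le_inf ((inf_le_left.trans h₂).trans inf_le_right) (inf_le_right.trans (hW i))),
      ← mul_assoc, L.res_cocycle]
  · show res _ (b (κ i)) = c i
    rw [hb' (κ i) i _ (le_inf (hWO i) (hW i)) le_rfl (le_inf (hW i) (hW i)), L.res_self_g, one_mul,
      res_self]

/-- The function which is the product of a section and a section of the inverse. -/
theorem exists_pairing (s : L.SecOn O) (t : L.inv.SecOn O') :
    ∃ c : Γ(X, O ⊓ O'), ∀ (x : X) (W : X.Opens) (h : W ≤ O ⊓ O') (hx : W ≤ L.U x),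
      res h c = s.val x (h.trans inf_le_left) hx *
        (show Γ(X, W) from t.val x (h.trans inf_le_right) hx) := by
  have key : ∀ (x y : X) (W : X.Opens) (hO : W ≤ O) (hO' : W ≤ O') (hx : W ≤ L.U x)
      (hy : W ≤ L.U y), s.val x hO hx * (show Γ(X, W) from t.val x hO' hx) =
        s.val y hO hy * (show Γ(X, W) from t.val y hO' hy) := by
    intro x y W hO hO' hx hy
    have et : t.val x hO' hx = res (le_inf hy hx) (L.g y x) * t.val y hO' hy :=
      (t.val_rel x y hO' hx hy).trans (congrArg (· * _) (res_g_inv L _))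
    refine (congrArg₂ (· * ·) (s.val_rel x y hO hx hy) et).trans ?_
    linear_combination (s.val y hO hy * (show Γ(X, W) from t.val y hO' hy)) *
      L.res_g_mul_g (le_inf hx hy) (le_inf hy hx)
  obtain ⟨c, hc⟩ := exists_res_eq (fun x => O ⊓ O' ⊓ L.U x) (fun x => inf_le_left)
    (fun x hx => ⟨x, hx, L.mem x⟩)
    (fun x => s.val x (inf_le_left.trans inf_le_left) inf_le_right *
      (show Γ(X, O ⊓ O' ⊓ L.U x) from t.val x (inf_le_left.trans inf_le_right) inf_le_right))
    (fun x y => by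
      refine (map_mul _ _ _).trans (Eq.trans ?_ (map_mul _ _ _).symm)
      refine (congrArg₂ (· * ·) (s.res_val _ _ _ _) (t.res_val _ _ _ _)).trans ?_
      refine (key x y _ _ _ _ (inf_le_right.trans inf_le_right)).trans ?_
      exact (congrArg₂ (· * ·) (s.res_val _ _ _ _) (t.res_val _ _ _ _)).symm)
  refine ⟨c, fun x W h hx => ?_⟩
  have e := congrArg (res (le_inf h hx)) (hc x)
  rw [res_res, map_mul] at e
  exact e.trans (congrArg₂ (· * ·) (s.res_val _ _ _ _) (t.res_val _ _ _ _))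

/-- Restriction of a section to a smaller open set. -/
def SecOn.restrict (s : L.SecOn O) (e : O' ≤ O) : L.SecOn O' where
  s x := res (inf_le_inf e le_rfl) (s.s x)
  rel x y W h₁ h₂ h := by
    rw [res_res, res_res]
    exact s.rel x y W _ _ _

theorem SecOn.restrict_val (s : L.SecOn O) (e : O' ≤ O) {W : X.Opens} (x : X) (hO : W ≤ O')
    (hx : W ≤ L.U x) : (s.restrict e).val x hO hx = s.val x (hO.trans e) hx :=
  res_res _ _ _

/-- Multiples of a section by a function. -/
def SecOn.scale (a : Γ(X, O)) (s : L.SecOn O) : L.SecOn O where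
  s x := res inf_le_left a * s.s x
  rel x y W h₁ h₂ h := by
    rw [map_mul, map_mul, s.rel x y W h₁ h₂ h, res_res, res_res]
    ring

theorem SecOn.scale_val (a : Γ(X, O)) (s : L.SecOn O) {W : X.Opens} (x : X) (hO : W ≤ O)
    (hx : W ≤ L.U x) : (s.scale a).val x hO hx = res hO a * s.val x hO hx := by
  show res _ (_ * _) = _
  rw [map_mul, res_res]
  rfl

/-- A global section over an open set. -/
def Sec.toSecOn (s : L.Sec) (O : X.Opens) : L.SecOn O where
  s x := res inf_le_right (s.s x)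
  rel x y W h₁ h₂ h := by
    rw [res_res, res_res]
    exact s.res_rel _ _ _

/-- The inverse of a section with unit values. -/
theorem exists_secOn_inv (s : L.SecOn O) (hu : ∀ x, IsUnit (s.s x)) :
    ∃ t : L.inv.SecOn O, ∀ (x : X) (W : X.Opens) (hO : W ≤ O) (hx : W ≤ L.U x),
      s.val x hO hx * (show Γ(X, W) from t.val x hO hx) = 1 := by
  choose d hd using fun x => isUnit_iff_exists_inv.1 (hu x)
  refine ⟨⟨d, fun x y W h₁ h₂ h => ?_⟩, fun x W hO hx => ?_⟩
  · have h₁ : W ≤ O ⊓ L.U x := h₁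
    have h₂ : W ≤ O ⊓ L.U y := h₂
    have dx : res h₁ (s.s x) * res h₁ (d x) = 1 := by rw [← map_mul, hd, map_one]
    have dy : res h₂ (s.s y) * res h₂ (d y) = 1 := by rw [← map_mul, hd, map_one]
    have h' : W ≤ L.U y ⊓ L.U x := le_inf (h.trans inf_le_right) (h.trans inf_le_left)
    have e := s.rel y x W h₂ h₁ h'
    refine Eq.trans ?_ (congrArg (fun a => a * res h₂ (d y)) (res_g_inv L h).symm)
    show res h₁ (d x) = res h' (L.g y x) * res h₂ (d y)
    linear_combination (-(res h₁ (d x))) * dy + (res h₂ (d y) * res h' (L.g y x)) * dx +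
      (res h₁ (d x) * res h₂ (d y)) * e
  · show res _ (s.s x) * res _ (d x) = 1
    exact (map_mul _ _ _).symm.trans (by rw [hd, map_one])

/-- Pullback of a section over an open set. -/
def SecOn.pull {L : LB Y} {O : Y.Opens} (φ : X ⟶ Y) (s : L.SecOn O) :
    (L.pull φ).SecOn (φ ⁻¹ᵁ O) where
  s x := (φ.app (O ⊓ L.U (φ x))).hom (s.s (φ x))
  rel x y W h₁ h₂ h := by
    let B := O ⊓ (L.U (φ x) ⊓ L.U (φ y))
    have hB : W ≤ φ ⁻¹ᵁ B := fun z hz => ⟨(h₁ hz).1, h hz⟩
    have e₁ : B ≤ O ⊓ L.U (φ x) := inf_le_inf le_rfl inf_le_left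
    have e₂ : B ≤ O ⊓ L.U (φ y) := inf_le_inf le_rfl inf_le_right
    have e := congrArg (fun a => res hB ((φ.app B).hom a))
      (s.rel (φ x) (φ y) B e₁ e₂ inf_le_right)
    simp only [map_mul] at e
    exact ((res_app φ e₁ _ hB _).trans e).trans (congrArg₂ (· * ·)
      (res_app φ inf_le_right _ hB _).symm (res_app φ e₂ _ hB _).symm)

theorem SecOn.pull_val {L : LB Y} {O : Y.Opens} (φ : X ⟶ Y) (s : L.SecOn O) {W : X.Opens}
    {B : Y.Opens} (x : X) (hB : W ≤ φ ⁻¹ᵁ B) (hBO : B ≤ O) (hBx : B ≤ L.U (φ x))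
    (hO : W ≤ φ ⁻¹ᵁ O) (hx : W ≤ (L.pull φ).U x) :
    (s.pull φ).val x hO hx = res hB ((φ.app B).hom (s.val (φ x) hBO hBx)) :=
  res_app φ (le_inf hBO hBx) _ hB _

theorem res_g_inv_pull {L : LB Y} (φ : X ⟶ Y) {x y : X} {W : X.Opens}
    (h : W ≤ (L.pull φ).inv.U x ⊓ (L.pull φ).inv.U y)
    (h' : W ≤ (L.inv.pull φ).U x ⊓ (L.inv.pull φ).U y) :
    res h ((L.pull φ).inv.g x y) = res h' ((L.inv.pull φ).g x y) :=
  (res_g_inv _ h).trans (res_app φ
    (le_inf inf_le_right inf_le_left :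
      L.U (φ x) ⊓ L.U (φ y) ≤ L.U (φ y) ⊓ L.U (φ x)) _ h' _)

/-- A section of the inverse of a pullback is a section of the pullback of the inverse. -/
def SecOn.ofInvPull {L : LB Y} (φ : X ⟶ Y) {A : X.Opens} (s : (L.inv.pull φ).SecOn A) :
    (L.pull φ).inv.SecOn A where
  s := s.s
  rel x y W h₁ h₂ h :=
    (s.rel x y W h₁ h₂ h).trans (congrArg (· * _) (res_g_inv_pull φ h h).symm)

theorem ofInvPull_val {L : LB Y} (φ : X ⟶ Y) {A : X.Opens} (s : (L.inv.pull φ).SecOn A)
    {W : X.Opens} (x : X) (hO : W ≤ A) (hx : W ≤ (L.pull φ).inv.U x) :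
    (s.ofInvPull φ).val x hO hx = s.val x hO hx := rfl

/-- A section of the inverse of a pullback, conversely. -/
def Sec.toInvPull {L : LB Y} (φ : X ⟶ Y) (s : (L.pull φ).inv.Sec) : (L.inv.pull φ).Sec where
  s := s.s
  rel x y :=
    (s.rel x y).trans (congrArg (· * _) ((res_self _).symm.trans
      ((res_g_inv_pull φ le_rfl le_rfl).trans (res_self _))))

theorem bijective_ι_app {V W : X.Opens} (h : W ≤ V) :
    Function.Bijective (V.ι.app W).hom :=
  haveI : IsIso (V.ι.app W) := V.ι.isIso_app W (h.trans V.opensRange_ι.ge)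
  ConcreteCategory.bijective_of_isIso (V.ι.app W)

/-- Sections over an open subscheme give sections over the open set. -/
theorem exists_secOn_of_pull {V : X.Opens} (t : (L.pull V.ι).Sec) :
    ∃ e : L.SecOn V, ∀ (z : V.toScheme) (W : X.Opens) (hV : W ≤ V) (hz : W ≤ L.U (V.ι z)),
      (V.ι.app W).hom (e.val (V.ι z) hV hz) = res (V.ι.preimage_mono hz) (t.s z) := by
  choose b hb using fun z : V.toScheme =>
    (bijective_ι_app (inf_le_left : V ⊓ L.U (V.ι z) ≤ V)).2
      (res (V.ι.preimage_mono inf_le_right) (t.s z))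
  have hbW : ∀ (z : V.toScheme) (W : X.Opens) (h : W ≤ V ⊓ L.U (V.ι z)),
      (V.ι.app W).hom (res h (b z)) =
        res (V.ι.preimage_mono (h.trans inf_le_right)) (t.s z) := by
    intro z W h
    have e := res_app V.ι h (V.ι.preimage_mono h) le_rfl (b z)
    rw [res_self, hb, res_res] at e
    exact e.symm
  obtain ⟨e, he⟩ := exists_secOn (L := L) (O := V) (fun z : V.toScheme => V ⊓ L.U (V.ι z))
    (fun z => V.ι z) (fun z => inf_le_left) (fun z => inf_le_right)
    (fun x hx => ⟨⟨x, hx⟩, hx, L.mem x⟩) b fun z z' A h₁ h₂ h => by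
      refine (bijective_ι_app (h₁.trans inf_le_left)).1 ?_
      rw [map_mul, hbW z A h₁, hbW z' A h₂]
      have hh : V.ι ⁻¹ᵁ A ≤ (L.pull V.ι).U z ⊓ (L.pull V.ι).U z' := fun w hw => h hw
      refine (t.res_rel (x := z) (y := z') _ (V.ι.preimage_mono (h₂.trans inf_le_right)) hh).trans
        (congrArg (· * _) ?_)
      exact (res_g_pull V.ι L hh (V.ι.preimage_mono h)).trans
        ((res_app V.ι h _ le_rfl _).trans (res_self _))
  refine ⟨e, fun z W hV hz => ?_⟩
  have e' := congrArg (res (le_inf hV hz)) (he z)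
  rw [SecOn.res_val] at e'
  rw [e', hbW]

/-- A trivialisation over an open subscheme gives unit values over the open set. -/
theorem exists_unitSecOn {V : X.Opens} (h : (L.pull V.ι).IsTrivial) :
    ∃ e : L.SecOn V, ∀ x, IsUnit (e.s x) := by
  obtain ⟨t, ht⟩ := h
  obtain ⟨e, he⟩ := exists_secOn_of_pull t
  refine ⟨e, fun x => isUnit_of_res (fun z : V.toScheme => V ⊓ L.U x ⊓ L.U (V.ι z))
    (fun z => inf_le_left) (fun w hw => ⟨⟨w, hw.1⟩, hw, L.mem w⟩) fun z => ?_⟩
  show IsUnit (e.val x (inf_le_left.trans inf_le_left) (inf_le_left.trans inf_le_right))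
  rw [e.val_rel x (V.ι z) _ _ inf_le_right]
  refine (L.isUnit_res_g _).mul ?_
  have hu : IsUnit ((V.ι.app (V ⊓ L.U x ⊓ L.U (V.ι z))).hom
      (e.val (V.ι z) (inf_le_left.trans inf_le_left) inf_le_right)) := by
    rw [he]
    exact (ht z).map _
  exact (isUnit_map_iff (RingEquiv.ofBijective _
    (bijective_ι_app (inf_le_left.trans inf_le_left : V ⊓ L.U x ⊓ L.U (V.ι z) ≤ V))) _).1 hu

/-- Frames over an affine open set. -/
theorem exists_frameOn (L : LB X) {O : X.Opens} (hO : IsAffineOpen O) :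
    ∃ (N : ℕ) (σ : Fin N → L.SecOn O) (τ : Fin N → L.inv.SecOn O),
      ∀ (x : X) (W : X.Opens) (h : W ≤ O) (hx : W ≤ L.U x),
        ∑ k, (σ k).val x h hx * (show Γ(X, W) from (τ k).val x h hx) = 1 := by
  haveI : IsAffine O.toScheme := hO
  obtain ⟨N, σ₀, τ₀, c, hc, h1⟩ := (L.pull O.ι).exists_frame
  choose σ hσ using fun k => exists_secOn_of_pull (σ₀ k)
  choose τ hτ using fun k => exists_secOn_of_pull ((τ₀ k).toInvPull O.ι)
  refine ⟨N, σ, τ, fun x W h hx => ?_⟩
  refine eq_of_res_eq (fun z : O.toScheme => W ⊓ L.U (O.ι z)) (fun z => inf_le_left)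
    (fun w hw => ⟨⟨w, h hw⟩, hw, L.mem w⟩) fun z => ?_
  set W' := W ⊓ L.U (O.ι z)
  have hO' : W' ≤ O := inf_le_left.trans h
  have hx' : W' ≤ L.U x := inf_le_left.trans hx
  have hz : W' ≤ L.U (O.ι z) := inf_le_right
  rw [map_sum, map_one]
  have key : ∀ k, res (inf_le_left : W' ≤ W)
      ((σ k).val x h hx * (show Γ(X, W) from (τ k).val x h hx)) =
      (σ k).val (O.ι z) hO' hz * (show Γ(X, W') from (τ k).val (O.ι z) hO' hz) := fun k => by
    refine (map_mul _ _ _).trans ((congrArg₂ (· * ·) ((σ k).res_val _ _ _ _)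
      ((τ k).res_val _ _ _ _)).trans ?_)
    have et : (τ k).val x hO' hx' =
        res (le_inf hz hx') (L.g (O.ι z) x) * (τ k).val (O.ι z) hO' hz :=
      ((τ k).val_rel x (O.ι z) hO' hx' hz).trans (congrArg (· * _) (res_g_inv L _))
    refine (congrArg₂ (· * ·) ((σ k).val_rel x (O.ι z) hO' hx' hz) et).trans ?_
    linear_combination ((σ k).val (O.ι z) hO' hz *
      (show Γ(X, W') from (τ k).val (O.ι z) hO' hz)) *
        L.res_g_mul_g (le_inf hx' hz) (le_inf hz hx')
  rw [Finset.sum_congr rfl fun k _ => key k]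
  refine (bijective_ι_app hO').1 ?_
  rw [map_sum, map_one, ← map_one (res (le_top : O.ι ⁻¹ᵁ W' ≤ ⊤)), ← h1, map_sum]
  refine Finset.sum_congr rfl fun k _ => ?_
  refine (map_mul _ _ _).trans ((congrArg₂ (· * ·) (hσ k z W' hO' hz) (hτ k z W' hO' hz)).trans ?_)
  exact ((res_res _ _ _).symm.trans
    ((congrArg (res (O.ι.preimage_mono hz)) (hc k z)).trans (map_mul _ _ _))).symm

end LB

end FLTAgent.AbScheme
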